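/-
S20, block (L), piece L.Z: vanishing at the cusp from an inequality of orders of Laurent expansions.

If `P`, `Q` are meromorphic at the cusp `i∞` of width `h`, `Q ≠ 0`, `F * Q = P` and the order of the
Laurent expansion of `Q` is smaller than that of `P` (or `P = 0`), then `F` (an arbitrary function)
tends to `0` at `i∞`.
-/
import Mathlib
import Fermat.Agent.S24.CuspExpansion

set_option autoImplicit false

namespace Fermat.Agent.S20.Dict.CuspZero

open UpperHalfPlane Filter Function Complex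
open Fermat.Agent.S24.CuspExpansion
open scoped Topology

variable {h : ℕ} [NeZero h]

theorem tendsto_qh : Tendsto (qh h) atImInfty (𝓝 0) :=
  qParam_tendsto_atImInfty (hpos h)

/-- Local factorisation `g = u ^ r * G₁(u)` of a function holomorphic at the cusp whose first `r`
`q`-expansion coefficients vanish. -/
theorem exists_factor_of_holAtCusp {g : ℍ → ℂ} (hg : HolAtCusp h g) (r : ℕ)
    (hlow : ∀ j < r, (qExpansion (h : ℝ) g).coeff j = 0) :
    ∃ G₁ : ℂ → ℂ, ContinuousAt G₁ 0 ∧ G₁ 0 = (qExpansion (h : ℝ) g).coeff r ∧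
      ∀ᶠ τ in atImInfty, g τ = qh h τ ^ r * G₁ (qh h τ) := by
  have hG := hg.analyticAt
  obtain ⟨F, hFa, hF⟩ := hG.exists_eventuallyEq_sum_add_pow_mul (r + 1)
  refine ⟨fun z => (qExpansion (h : ℝ) g).coeff r + z * F z, ?_, by simp, ?_⟩
  · exact continuousAt_const.add (continuousAt_id.mul hFa.continuousAt)
  · filter_upwards [(tendsto_qh (h := h)).eventually hF] with τ hτ
    have e1 : g τ = cuspFunction (h : ℝ) g (qh h τ) :=
      (eq_cuspFunction τ (hpos h).ne' hg.per).symm
    rw [e1, hτ, Finset.sum_range_succ, Finset.sum_eq_zero]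
    · have hr : iteratedDeriv r (cuspFunction (h : ℝ) g) 0
          = (r.factorial : ℂ) * (qExpansion (h : ℝ) g).coeff r := by
        rw [qExpansion_coeff, ← mul_assoc, mul_inv_cancel₀, one_mul]
        exact_mod_cast Nat.factorial_ne_zero r
      rw [hr]
      have hfac : (r.factorial : ℂ) ≠ 0 := by exact_mod_cast Nat.factorial_ne_zero r
      simp only [smul_eq_mul]
      field_simp
      ring
    · intro i hi
      have hi' : i < r := Finset.mem_range.mp hi
      have h0 := hlow i hi'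
      rw [qExpansion_coeff] at h0
      have hfac : ((i.factorial : ℂ))⁻¹ ≠ 0 :=
        inv_ne_zero (by exact_mod_cast Nat.factorial_ne_zero i)
      rw [(mul_eq_zero.mp h0).resolve_left hfac, smul_zero]

/-- Local factorisation `f = u ^ k * G₁(u)`, `G₁(0) ≠ 0`, `k` the order of the Laurent expansion,
for a nonzero function meromorphic at the cusp. -/
theorem exists_zpow_factor {f : ℍ → ℂ} (hf : MerAtCusp h f) (hf0 : f ≠ 0) :
    ∃ G₁ : ℂ → ℂ, ContinuousAt G₁ 0 ∧ G₁ 0 ≠ 0 ∧
      ∀ᶠ τ in atImInfty, f τ = qh h τ ^ (cuspLaurent h f).order * G₁ (qh h τ) := by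
  obtain ⟨m, hm⟩ := hf.mer
  have hg : HolAtCusp h (qh h ^ m * f) := hf.holAtCusp_mul hm
  have hne : cuspLaurent h f ≠ 0 := fun h0 => hf0 ((cuspLaurent_eq_zero_iff hf).mp h0)
  set k : ℤ := (cuspLaurent h f).order with hk
  have hck : (cuspLaurent h f).coeff k ≠ 0 := fun h0 => hne (HahnSeries.coeff_order_eq_zero.mp h0)
  have hkm : 0 ≤ k + m := by
    by_contra hneg
    apply hck
    rw [coeff_cuspLaurent hf hm, if_neg hneg]
  set r : ℕ := (k + m).toNat with hr
  have hrk : (r : ℤ) = k + m := Int.toNat_of_nonneg hkm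
  have hlow : ∀ j < r, (qExpansion (h : ℝ) (qh h ^ m * f)).coeff j = 0 := by
    intro j hj
    have hlt : (j : ℤ) - m < k := by
      have : (j : ℤ) < r := by exact_mod_cast hj
      omega
    have h0 := HahnSeries.coeff_eq_zero_of_lt_order (x := cuspLaurent h f) hlt
    rw [coeff_cuspLaurent hf hm, if_pos (by omega)] at h0
    have : ((j : ℤ) - m + m).toNat = j := by simp
    rwa [this] at h0
  have hcr : (qExpansion (h : ℝ) (qh h ^ m * f)).coeff r = (cuspLaurent h f).coeff k := by
    rw [coeff_cuspLaurent hf hm, if_pos hkm]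
  obtain ⟨G₁, hG₁c, hG₁0, hG₁⟩ := exists_factor_of_holAtCusp hg r hlow
  refine ⟨G₁, hG₁c, by rw [hG₁0, hcr]; exact hck, ?_⟩
  filter_upwards [hG₁] with τ hτ
  have hq : qh h τ ≠ 0 := qh_ne_zero h τ
  have hkr : k = (r : ℤ) - m := by omega
  rw [hkr, zpow_sub₀ hq, zpow_natCast, zpow_natCast, div_mul_eq_mul_div, ← hτ]
  simp only [Pi.mul_apply, Pi.pow_apply]
  field_simp

/-- **L.Z.** Vanishing at the cusp from an inequality of orders. -/
theorem isZeroAtImInfty_of_order_lt {P Q F : ℍ → ℂ} (hP : MerAtCusp h P) (hQ : MerAtCusp h Q)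
    (hQ0 : Q ≠ 0) (hFQ : F * Q = P)
    (hord : P = 0 ∨ (cuspLaurent h Q).order < (cuspLaurent h P).order) :
    UpperHalfPlane.IsZeroAtImInfty F := by
  show Tendsto F atImInfty (𝓝 0)
  obtain ⟨GQ, hGQc, hGQ0, hGQ⟩ := exists_zpow_factor hQ hQ0
  have hGQne : ∀ᶠ τ in atImInfty, GQ (qh h τ) ≠ 0 :=
    (hGQc.tendsto.comp tendsto_qh).eventually_ne hGQ0
  have hQne : ∀ᶠ τ in atImInfty, Q τ ≠ 0 := by
    filter_upwards [hGQ, hGQne] with τ h1 h2
    rw [h1]
    exact mul_ne_zero (zpow_ne_zero _ (qh_ne_zero h τ)) h2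
  by_cases hP0 : P = 0
  · -- `F` vanishes eventually
    refine tendsto_const_nhds.congr' ?_
    filter_upwards [hQne] with τ hτ
    have h1 : F τ * Q τ = 0 := by
      have := congrFun hFQ τ
      rw [hP0] at this
      simpa using this
    exact ((mul_eq_zero.mp h1).resolve_right hτ).symm
  · have hlt : (cuspLaurent h Q).order < (cuspLaurent h P).order := hord.resolve_left hP0
    obtain ⟨GP, hGPc, -, hGP⟩ := exists_zpow_factor hP hP0
    obtain ⟨n, hn⟩ : ∃ n : ℕ, (cuspLaurent h P).order - (cuspLaurent h Q).order = (n : ℤ) + 1 :=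
      ⟨((cuspLaurent h P).order - (cuspLaurent h Q).order - 1).toNat, by omega⟩
    have hlim : Tendsto (fun τ => qh h τ ^ (n + 1) * (GP (qh h τ) / GQ (qh h τ))) atImInfty
        (𝓝 (0 ^ (n + 1) * (GP 0 / GQ 0))) :=
      (tendsto_qh.pow (n + 1)).mul
        ((hGPc.tendsto.comp tendsto_qh).div (hGQc.tendsto.comp tendsto_qh) hGQ0)
    rw [zero_pow (Nat.succ_ne_zero n), zero_mul] at hlim
    refine hlim.congr' ?_
    filter_upwards [hGP, hGQ, hGQne, hQne] with τ h1 h2 h3 h4
    have hq : qh h τ ≠ 0 := qh_ne_zero h τ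
    have hFτ : F τ = P τ / Q τ := by
      have := congrFun hFQ τ
      simp only [Pi.mul_apply] at this
      rw [← this, mul_div_assoc, div_self h4, mul_one]
    rw [hFτ, h1, h2]
    have hp : (cuspLaurent h P).order = (cuspLaurent h Q).order + ((n : ℤ) + 1) := by omega
    rw [hp, zpow_add₀ hq]
    have : qh h τ ^ ((n : ℤ) + 1) = qh h τ ^ (n + 1) := by
      rw [← zpow_natCast]; push_cast; rfl
    rw [this]
    have hz : qh h τ ^ (cuspLaurent h Q).order ≠ 0 := zpow_ne_zero _ hq
    field_simp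

end Fermat.Agent.S20.Dict.CuspZero
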