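import Fermat.Agent.S20.Dict.CuspPoint
import Fermat.Agent.S20.Dict.CuspZero
import Fermat.Agent.S20.LinIndepBaseChange
import Fermat.Agent.S24.KaehlerGen

/-!
# S20, block (L), piece L.S: assembly of the dictionary

From a family of `Kbar`-linearly independent regular differentials of `FBar N` we produce as many
`ℂ`-linearly independent cusp forms of weight `2` and level `Γ₀(N)`.  The function `G` (in
practice `D j = -E₄² E₆ / Δ`) and the holomorphy statement at the points of `ℍ` are hypotheses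
here; they are discharged in `Dict/Final.lean`.
-/

set_option autoImplicit false

open AlgebraicCurve KaehlerDifferential UpperHalfPlane CongruenceSubgroup ModularForm
open scoped MatrixGroups Manifold

noncomputable section

namespace Fermat.Agent.S20.Dict.Assemble

open Fermat.Agent.S24 Fermat.Agent.S24.FieldGen Fermat.Agent.S24.FinitePackage
  Fermat.Agent.S24.CuspExpansion Fermat.Agent.S24.FiniteDatum ModularCurve

variable [Algebra Kbar ℂ] {N : ℕ} [NeZero N] (D : EvData N)

set_option linter.unusedSectionVars false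

theorem mdiff_ev (a : genAlg N) : MDiff (D.ev a) := mem_holAlg_iff_mdiff.mp (D.hol a)

theorem ev_ne_zero {b : genAlg N} (hb : b ≠ 0) : D.ev b ≠ 0 := fun h =>
  hb (D.inj (by rw [h, map_zero]))

/-- Weight `2` invariance under `Γ₀(N)` of the quotient `c = ev a * G / ev b`. -/
theorem slash_eq {G c : ℍ → ℂ} (hGslash : ∀ γ : SL(2, ℤ), G ∣[(2 : ℤ)] γ = G) (hc : MDiff c)
    {a b : genAlg N} (hb : b ≠ 0) (hmul : D.ev a * G = c * D.ev b)
    (γ : SL(2, ℤ)) (hγ : γ ∈ Gamma0 N) : c ∣[(2 : ℤ)] γ = c := by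
  have key : (c ∣[(2 : ℤ)] γ - c) * D.ev b = 0 := by
    funext τ
    have h1 := congrFun hmul (γ • τ)
    have h2 := congrFun hmul τ
    have h3 := congrFun (hGslash γ) τ
    rw [ModularForm.SL_slash_apply] at h3
    simp only [Pi.mul_apply] at h1 h2
    rw [D.inv a γ hγ, D.inv b γ hγ] at h1
    simp only [Pi.mul_apply, Pi.sub_apply, Pi.zero_apply, ModularForm.SL_slash_apply]
    linear_combination (-(denom γ τ ^ (-(2 : ℤ)))) * h1 + D.ev a τ * h3 + h2
  have hholo : MDiff (c ∣[(2 : ℤ)] γ - c) := (hc.slash 2 γ).sub hc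
  rcases (UpperHalfPlane.mul_eq_zero_iff hholo (mdiff_ev D b)).mp key with h | h
  · exact sub_eq_zero.mp h
  · exact absurd h (ev_ne_zero D hb)

/-- Vanishing at all cusps of the quotient `c = ev a * G / ev b` attached to a regular
differential. -/
theorem isZeroAtImInfty_slash
    (hcusp : ∀ a (g : SL(2, ℤ)), (fun τ => D.ev a (g⁻¹ • τ)) ∈ merCuspAlg N)
    (hF : IsFunctionField1 Kbar (FBar N)) {G c : ℍ → ℂ}
    (hGslash : ∀ γ : SL(2, ℤ), G ∣[(2 : ℤ)] γ = G)
    (hGmer : MerAtCusp N G) (hGord : (cuspLaurent N G).order = -(N : ℤ))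
    (hjord : (cuspLaurent N jFun).order = -(N : ℤ))
    {a b : genAlg N} (ha : a ≠ 0) (hb : b ≠ 0)
    (hreg : ∀ v : Place Kbar (FBar N), 0 ≤ v.ordDifferential
      ((incl N a / incl N b) • KaehlerDifferential.D Kbar (FBar N) (jBar N)))
    (hmul : D.ev a * G = c * D.ev b) (g : SL(2, ℤ)) :
    IsZeroAtImInfty (c ∣[(2 : ℤ)] g) := by
  have hord := CuspPoint.order_lt D hcusp hF hGmer hGord hjord ha hb hreg g⁻¹
  simp only [inv_inv] at hord
  have hA : MerAtCusp N (fun τ => D.ev a (g • τ)) := by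
    have := mem_merCuspAlg.mp (hcusp a g⁻¹)
    simpa only [inv_inv] using this
  have hB : MerAtCusp N (fun τ => D.ev b (g • τ)) := by
    have := mem_merCuspAlg.mp (hcusp b g⁻¹)
    simpa only [inv_inv] using this
  have hB0 : (fun τ => D.ev b (g • τ)) ≠ 0 := by
    have := CuspPoint.ev_comp_ne_zero D hb g⁻¹
    simpa only [inv_inv] using this
  refine CuspZero.isZeroAtImInfty_of_order_lt (hA.mul hGmer) hB hB0 ?_ (Or.inr hord)
  funext τ
  have h1 := congrFun hmul (g • τ)
  have h3 := congrFun (hGslash g) τ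
  rw [ModularForm.SL_slash_apply] at h3
  simp only [Pi.mul_apply] at h1
  simp only [Pi.mul_apply, ModularForm.SL_slash_apply]
  linear_combination (-(denom g τ ^ (-(2 : ℤ)))) * h1 + D.ev a (g • τ) * h3

/-- Packaging as a cusp form. -/
theorem exists_cuspForm {c : ℍ → ℂ} (hc : MDiff c)
    (hinv : ∀ γ : SL(2, ℤ), γ ∈ Gamma0 N → c ∣[(2 : ℤ)] γ = c)
    (hzero : ∀ g : SL(2, ℤ), IsZeroAtImInfty (c ∣[(2 : ℤ)] g)) :
    ∃ f : CuspForm (Gamma0 N) 2, (f : ℍ → ℂ) = c := by
  refine ⟨{ toFun := c
            slash_action_eq' := ?_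
            holo' := hc
            zero_at_cusps' := ?_ }, rfl⟩
  · intro γ hγ
    obtain ⟨γ', hγ', rfl⟩ := Subgroup.mem_map.mp hγ
    exact hinv γ' hγ'
  · intro cc hcc
    have hc' : IsCusp cc 𝒮ℒ :=
      (Subgroup.IsArithmetic.isCusp_iff_isCusp_SL2Z ((Gamma0 N : Subgroup SL(2, ℤ)) :
        Subgroup (GL (Fin 2) ℝ))).mp hcc
    rw [OnePoint.isZeroAt_iff_forall_SL2Z hc']
    intro γ _
    exact hzero γ


/-- Common denominators in `FBar N = Frac (genAlg N)`. -/
theorem exists_common_denom {ι : Type*} [Fintype ι] (h : ι → FBar N) :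
    ∃ (a : ι → genAlg N) (b : genAlg N), b ≠ 0 ∧ ∀ i, h i = incl N (a i) / incl N b := by
  classical
  choose a0 b0 hb0 hh using fun i => exists_div N (h i)
  refine ⟨fun i => a0 i * ∏ j ∈ Finset.univ.erase i, b0 j, ∏ j, b0 j,
    Finset.prod_ne_zero_iff.mpr fun j _ => hb0 j, fun i => ?_⟩
  have hP : (∏ j ∈ Finset.univ.erase i, b0 j) ≠ 0 :=
    Finset.prod_ne_zero_iff.mpr fun j _ => hb0 j
  rw [← Finset.mul_prod_erase Finset.univ b0 (Finset.mem_univ i), map_mul, map_mul, hh i,
    mul_div_mul_right _ _ (incl_ne_zero N hP)]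

/-- Evaluation of cusp forms at a point, as a linear map. -/
def evalAt (τ : ℍ) : CuspForm (Gamma0 N) 2 →ₗ[ℂ] ℂ where
  toFun f := f τ
  map_add' _ _ := rfl
  map_smul' _ _ := rfl

/-- **(L), generic form.** Linearly independent regular differentials give linearly independent
cusp forms. -/
theorem exists_linearIndependent_cuspForm
    (hcusp : ∀ a (g : SL(2, ℤ)), (fun τ => D.ev a (g⁻¹ • τ)) ∈ merCuspAlg N)
    (hexp : ∀ a : genAlg N, MerAtCusp 1 (D.ev a) ∧
      cuspLaurent 1 (D.ev a) = coeffMap (algebraMap Kbar ℂ) (a : LaurentSeries Kbar))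
    (hF : IsFunctionField1 Kbar (FBar N)) (htr : Transcendental Kbar (jBar N))
    {G : ℍ → ℂ} (hG0 : G ≠ 0) (hGhol : MDiff G)
    (hGslash : ∀ γ : SL(2, ℤ), G ∣[(2 : ℤ)] γ = G)
    (hGmer : MerAtCusp N G) (hGord : (cuspLaurent N G).order = -(N : ℤ))
    (hjord : (cuspLaurent N jFun).order = -(N : ℤ))
    (hhol : ∀ a b : genAlg N, b ≠ 0 →
      (∀ v : Place Kbar (FBar N), 0 ≤ v.ordDifferential
        ((incl N a / incl N b) • KaehlerDifferential.D Kbar (FBar N) (jBar N))) →
      ∃ c : ℍ → ℂ, MDiff c ∧ D.ev a * G = c * D.ev b)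
    {ι : Type*} [Fintype ι] (ω : ι → Ω[FBar N⁄Kbar]) (hω : LinearIndependent Kbar ω)
    (hreg : ∀ (i : ι) (v : Place Kbar (FBar N)), 0 ≤ v.ordDifferential (ω i)) :
    ∃ f : ι → CuspForm (Gamma0 N) 2, LinearIndependent ℂ f := by
  classical
  haveI := KaehlerGen.FF.isAlgebraic_adjoin hF htr
  -- write `ω i = h i • d j`
  choose h hh using fun i => KaehlerGen.exists_eq_smul_D (jBar N) (ω i)
  obtain ⟨a, b, hb, hab⟩ := exists_common_denom h
  have hωab : ∀ i, ω i = (incl N (a i) / incl N b) •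
      KaehlerDifferential.D Kbar (FBar N) (jBar N) := fun i => by rw [hh i, hab i]
  -- the numerators are linearly independent
  have ha : LinearIndependent Kbar a := by
    rw [Fintype.linearIndependent_iff]
    intro c hc i
    have h1 : ∑ i, c i • ω i = (incl N (∑ i, c i • a i) / incl N b) •
        KaehlerDifferential.D Kbar (FBar N) (jBar N) := by
      rw [map_sum, Finset.sum_div, Finset.sum_smul]
      refine Finset.sum_congr rfl fun i _ => ?_
      rw [hωab i, map_smul, smul_div_assoc, smul_assoc]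
    rw [hc, map_zero, zero_div, zero_smul] at h1
    exact Fintype.linearIndependent_iff.mp hω c h1 i
  have ha0 : ∀ i, a i ≠ 0 := fun i => ha.ne_zero i
  have hreg' : ∀ i, ∀ v : Place Kbar (FBar N), 0 ≤ v.ordDifferential
      ((incl N (a i) / incl N b) • KaehlerDifferential.D Kbar (FBar N) (jBar N)) := by
    intro i v
    rw [← hωab i]
    exact hreg i v
  -- the holomorphic quotients
  choose c hc hmul using fun i => hhol (a i) b hb (hreg' i)
  -- the cusp forms
  choose f hf using fun i => exists_cuspForm (hc i)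
    (fun γ hγ => slash_eq D hGslash (hc i) hb (hmul i) γ hγ)
    (fun g => isZeroAtImInfty_slash D hcusp hF hGslash hGmer hGord hjord (ha0 i) hb (hreg' i)
      (hmul i) g)
  refine ⟨f, ?_⟩
  rw [Fintype.linearIndependent_iff]
  intro l hl
  -- the relation on functions
  have h1 : ∀ τ : ℍ, ∑ i, l i * c i τ = 0 := by
    intro τ
    have := congrArg (evalAt τ) hl
    rw [map_sum, map_zero] at this
    simp only [map_smul, smul_eq_mul] at this
    rw [← this]
    refine Finset.sum_congr rfl fun i _ => ?_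
    show l i * c i τ = l i * (f i : ℍ → ℂ) τ
    rw [hf i]
  -- the element `X = ∑ l i • ev (a i)` of the cusp algebra
  set X : merCuspAlg 1 := ∑ i, l i • (⟨D.ev (a i), (hexp (a i)).1⟩ : merCuspAlg 1) with hX
  have hXfun : ∀ τ : ℍ, (X : ℍ → ℂ) τ = ∑ i, l i * D.ev (a i) τ := by
    intro τ
    rw [hX, AddSubmonoidClass.coe_finset_sum, Finset.sum_apply]
    rfl
  have hXG : (X : ℍ → ℂ) * G = 0 := by
    funext τ
    rw [Pi.mul_apply, hXfun, Pi.zero_apply, Finset.sum_mul]
    have h2 : ∀ i, l i * D.ev (a i) τ * G τ = (l i * c i τ) * D.ev b τ := by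
      intro i
      have := congrFun (hmul i) τ
      simp only [Pi.mul_apply] at this
      linear_combination l i * this
    rw [Finset.sum_congr rfl fun i _ => h2 i, ← Finset.sum_mul, h1 τ, zero_mul]
  have hX0 : X = 0 := by
    rcases (UpperHalfPlane.mul_eq_zero_iff (mem_merCuspAlg.mp X.2).hol hGhol).mp hXG with h | h
    · exact Subtype.ext h
    · exact absurd h hG0
  -- apply the expansion at `i∞`
  have h3 : ∑ i, l i • coeffMap (algebraMap Kbar ℂ) (a i : LaurentSeries Kbar) = 0 := by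
    have := congrArg (cuspLaurentHom 1) hX0
    rw [hX, map_sum, map_zero] at this
    rw [← this]
    refine Finset.sum_congr rfl fun i _ => ?_
    rw [Algebra.smul_def, map_mul, AlgHom.commutes, cuspLaurentHom_apply,
      LaurentAux.algebraMap_eq_C, HahnSeries.C_mul_eq_smul]
    show l i • _ = l i • cuspLaurent 1 (D.ev (a i))
    rw [(hexp (a i)).2]
  have ha' : LinearIndependent Kbar (fun i => (a i : LaurentSeries Kbar)) := by
    rw [Fintype.linearIndependent_iff]
    intro e he i
    refine Fintype.linearIndependent_iff.mp ha e ?_ i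
    apply Subtype.ext
    rw [AddSubmonoidClass.coe_finset_sum, ZeroMemClass.coe_zero, ← he]
    refine Finset.sum_congr rfl fun i _ => ?_
    rw [Subalgebra.coe_smul, Algebra.smul_def, ModularCurve.algebraMap_laurentSeries_eq_single,
      ← HahnSeries.C_apply, HahnSeries.C_mul_eq_smul]
  have h4 := LinIndepBaseChange.laurent (algebraMap Kbar ℂ) _ ha'
  exact Fintype.linearIndependent_iff.mp h4 l h3

end Fermat.Agent.S20.Dict.Assemble
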