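import Mathlib
import Fermat.Agent.S24.EvDataInst
import Fermat.Agent.S24.CuspPackage
import Fermat.Agent.S24.CuspGen

/-!
# S20 (L): the hypotheses `hcusp`, `hexp` of the dictionary for the concrete `EvData`

For `D := Fermat.Agent.S24.EvDataInst.evData N` (so `D.ev = evFun N`):

* `hcusp N : ∀ a g, (fun τ => (evData N).ev a (g⁻¹ • τ)) ∈ merCuspAlg N`;
* `hexp N : ∀ a, MerAtCusp 1 ((evData N).ev a) ∧
    cuspLaurent 1 ((evData N).ev a) = coeffMap (algebraMap Kbar ℂ) a`.
-/

set_option autoImplicit false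

open ModularCurve UpperHalfPlane
open scoped MatrixGroups

namespace Fermat.Agent.S20.Dict.EvHyps

open Fermat.Agent.S24 Fermat.Agent.S24.FieldGen Fermat.Agent.S24.EvDataInst
  Fermat.Agent.S24.CuspExpansion

variable [Algebra Kbar ℂ] (N : ℕ) [NeZero N]

/-- Every translate of `ev a` is `N`-periodic and meromorphic at `i∞`. -/
theorem hcusp' (a : genAlg N) (g : SL(2, ℤ)) :
    (fun τ : ℍ => evFun N a (g • τ)) ∈ merCuspAlg N := by
  refine CuspPackage.translate_mem (evFun N) (merCuspAlg N) ?_ a g
  intro d hd g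
  rw [evFun_genJ N hd]
  exact CuspGen.jD_comp_mem N d hd g

/-- `hcusp` of the dictionary (report 701), for the concrete evaluation datum. -/
theorem hcusp (a : genAlg N) (g : SL(2, ℤ)) :
    (fun τ : ℍ => (evData N).ev a (g⁻¹ • τ)) ∈ merCuspAlg N :=
  hcusp' N a g⁻¹

/-- `hexp` of the dictionary (report 701), for the concrete evaluation datum: the width-one
expansion of `ev a` is the series `a`, coefficientwise through `ℚ̄ → ℂ`. -/
theorem hexp (a : genAlg N) :
    MerAtCusp 1 ((evData N).ev a) ∧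
      cuspLaurent 1 ((evData N).ev a) =
        ModularCurve.coeffMap (algebraMap Kbar ℂ) (a : LaurentSeries Kbar) := by
  refine ⟨evFun_merAtCusp N a, ?_⟩
  have h := cuspHomK_evR N a
  rw [cuspHomK_apply, coeffMapAlg_apply] at h
  exact h

end Fermat.Agent.S20.Dict.EvHyps
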