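/-
S20, block (L) dictionary, piece L.G (helper4 report 701): the weight-2 weakly holomorphic form
`G = -(E₄² E₆)/Δ = (2πi)⁻¹ j'`, its local orders on `ℍ` and at the cusps.  Owner: helper44.
-/
import Mathlib
import Fermat.Agent.S24.JLocalOrder
import Fermat.Agent.S24.CuspExpansion
import Fermat.Agent.S24.JdInv
import Fermat.Agent.S24.CuspGen

set_option autoImplicit false

namespace Fermat.Agent.S20.Dict.GFun

open UpperHalfPlane hiding I
open ModularForm ModularFormClass MatrixGroups EisensteinSeries Complex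
  Filter Topology CongruenceSubgroup SlashInvariantForm
open scoped Manifold Real
open Fermat.Agent.S24 Fermat.Agent.S24.CuspExpansion

local notation "𝕢" => Function.Periodic.qParam

/-! ### A generic order computation at the cusp -/

section generic

variable {h : ℕ} [NeZero h] {f : ℍ → ℂ}

/-- If `u ^ m * f → c ≠ 0` at `i∞` (`u = exp (2πiτ/h)`), the Laurent expansion of `f` in `u` has
order exactly `-m`. -/
theorem order_cuspLaurent_eq_of_tendsto (hf : MerAtCusp h f) {m : ℕ} {c : ℂ} (hc : c ≠ 0)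
    (ht : Tendsto (qh h ^ m * f) atImInfty (𝓝 c)) : (cuspLaurent h f).order = -(m : ℤ) := by
  have hb : IsBoundedAtImInfty (qh h ^ m * f) := ht.isBigO_one ℝ
  have hg : HolAtCusp h (qh h ^ m * f) := hf.holAtCusp_mul hb
  have h0 : (qExpansion (h : ℝ) (qh h ^ m * f)).coeff 0 = c := by
    rw [qExpansion_coeff_zero (hpos h) hg.analyticAt hg.per]
    exact ht.limUnder_eq
  have hcoeff : ∀ k : ℤ, (cuspLaurent h f).coeff k =
      if 0 ≤ k + m then (qExpansion (h : ℝ) (qh h ^ m * f)).coeff (k + m).toNat else 0 :=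
    coeff_cuspLaurent hf hb
  have hm : (cuspLaurent h f).coeff (-(m : ℤ)) = c := by
    rw [hcoeff]
    simp [h0]
  have hne : cuspLaurent h f ≠ 0 := by
    intro h0'
    rw [h0'] at hm
    exact hc (by simpa using hm.symm)
  apply le_antisymm
  · exact HahnSeries.order_le_of_coeff_ne_zero (by rw [hm]; exact hc)
  · rw [HahnSeries.le_order_iff_forall hne]
    intro j hj
    rw [hcoeff, if_neg]
    omega

end generic

/-! ### The cusp orders of `jFun` -/

section jFunCusp

variable (h : ℕ) [NeZero h]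

lemma qh_pow_self (τ : ℍ) : qh h τ ^ h = 𝕢 1 τ := by
  have hh : (h : ℂ) ≠ 0 := Nat.cast_ne_zero.mpr (NeZero.ne h)
  unfold qh Function.Periodic.qParam
  rw [← Complex.exp_nat_mul]
  congr 1
  push_cast
  field_simp

/-- `jFun` is meromorphic at the cusp `i∞` in every width. -/
theorem merAtCusp_jFun : MerAtCusp h jFun := CuspGen.merAtCusp_jFun_width h

theorem tendsto_qh_pow_mul_jFun : Tendsto (qh h ^ h * jFun) atImInfty (𝓝 1) := by
  refine JdInv.tendsto_jFun_mul_qParam.congr fun z => ?_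
  simp only [Pi.mul_apply, Pi.pow_apply]
  rw [qh_pow_self, mul_comm]

/-- In the parameter `u = exp (2πiτ/h)` the function `j` has a pole of order exactly `h`. -/
theorem order_cuspLaurent_jFun : (cuspLaurent h jFun).order = -(h : ℤ) :=
  order_cuspLaurent_eq_of_tendsto (merAtCusp_jFun h) one_ne_zero (tendsto_qh_pow_mul_jFun h)

end jFunCusp

/-! ### The function `G` -/

/-- `G = -(E₄² E₆)/Δ = (2πi)⁻¹ j'`, weakly holomorphic of weight `2` and level one. -/
noncomputable def G : ℍ → ℂ := fun t => -(E₄ t ^ 2 * E₆ t) / ModularForm.discriminant t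

theorem G_apply (t : ℍ) : G t = -(E₄ t ^ 2 * E₆ t) / ModularForm.discriminant t := rfl

theorem mdiff_G : MDiff G := by
  rw [UpperHalfPlane.mdifferentiable_iff]
  have h4 : DifferentiableOn ℂ ((E₄ : ℍ → ℂ) ∘ ofComplex) upperHalfPlaneSet :=
    UpperHalfPlane.mdifferentiable_iff.mp (ModularFormClass.holo E₄)
  have h6 : DifferentiableOn ℂ ((E₆ : ℍ → ℂ) ∘ ofComplex) upperHalfPlaneSet :=
    UpperHalfPlane.mdifferentiable_iff.mp (ModularFormClass.holo E₆)
  have h12 : DifferentiableOn ℂ ((CuspForm.discriminant : ℍ → ℂ) ∘ ofComplex) upperHalfPlaneSet :=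
    UpperHalfPlane.mdifferentiable_iff.mp (CuspFormClass.holo CuspForm.discriminant)
  have := (((h4.pow 2).mul h6).neg).div h12 (fun z hz => by
    simpa using discriminant_ne_zero (ofComplex z))
  exact this

/-- `2πi G` is the derivative of `j`. -/
theorem hasDerivAt_jFun_G (z : ℍ) :
    HasDerivAt (jFun ∘ ofComplex) (2 * π * I * G z) z := JLocalOrder.hasDerivAt_jFun z

theorem G_eq_zero_iff (z : ℍ) : G z = 0 ↔ E₄ z = 0 ∨ E₆ z = 0 := by
  rw [G_apply, div_eq_zero_iff, neg_eq_zero, mul_eq_zero, pow_eq_zero_iff two_ne_zero]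
  simp [discriminant_ne_zero z]

theorem tendsto_qParam_mul_G : Tendsto (fun z : ℍ => 𝕢 1 z * G z) atImInfty (𝓝 (-1)) := by
  have h1 : Tendsto (fun z : ℍ => -(E₄ z ^ 2 * E₆ z) / ∏' n, (1 - eta_q n z) ^ 24) atImInfty
      (𝓝 (-(1 ^ 2 * 1) / 1)) :=
    (((JLocalOrder.tendsto_E4.pow 2).mul JLocalOrder.tendsto_E6).neg).div
      tendsto_atImInfty_tprod_one_sub_eta_q_pow one_ne_zero
  have e : (-(1 ^ 2 * 1) / 1 : ℂ) = -1 := by norm_num
  rw [e] at h1
  refine h1.congr fun z => ?_
  have hq : 𝕢 1 (z : ℂ) ≠ 0 := Function.Periodic.qParam_ne_zero _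
  have hΔ := discriminant_ne_zero z
  rw [G_apply, discriminant_eq_q_prod]
  rw [discriminant_eq_q_prod] at hΔ
  have hP : (∏' n, (1 - eta_q n z) ^ 24) ≠ 0 := right_ne_zero_of_mul hΔ
  field_simp

theorem G_ne_zero : G ≠ 0 := by
  intro h0
  have h1 := tendsto_qParam_mul_G
  rw [h0] at h1
  simp only [Pi.zero_apply, mul_zero] at h1
  have := tendsto_nhds_unique h1 tendsto_const_nhds
  norm_num at this

/-- `G (γ z) = (cz + d)² G z`. -/
theorem G_smul (γ : SL(2, ℤ)) (z : ℍ) : G (γ • z) = denom γ z ^ 2 * G z := by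
  have h12 : SlashInvariantFormClass (CuspForm 𝒮ℒ 12) Γ(1) 12 :=
    Gamma_one_coe_eq_SL ▸ inferInstance
  have e4 := JLocalOrder.levelOne_smul_eq E₄ γ z
  have e6 := JLocalOrder.levelOne_smul_eq E₆ γ z
  have e12 := slash_action_eqn_SL'' CuspForm.discriminant (mem_Gamma_one γ) z
  rw [CuspForm.coe_discriminant] at e12
  rw [G_apply, G_apply, e4, e6, e12]
  have hd : denom γ z ≠ 0 := denom_ne_zero _ _
  have hΔ : ModularForm.discriminant z ≠ 0 := discriminant_ne_zero z
  field_simp

theorem G_slash (γ : SL(2, ℤ)) : G ∣[(2 : ℤ)] γ = G := by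
  funext z
  rw [ModularForm.SL_slash_apply, G_smul]
  have hd : denom γ z ≠ 0 := denom_ne_zero _ _
  rw [zpow_neg]
  field_simp

/-- `(g * G) ∣[2] γ = (g ∘ γ) * G`: multiplying `G` by a function turns invariance of weight `0`
into invariance of weight `2`. -/
theorem mul_G_slash (g : ℍ → ℂ) (γ : SL(2, ℤ)) :
    (g * G) ∣[(2 : ℤ)] γ = (fun z => g (γ • z)) * G := by
  funext z
  rw [ModularForm.SL_slash_apply]
  simp only [Pi.mul_apply]
  rw [G_smul]
  have hd : denom γ z ≠ 0 := denom_ne_zero _ _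
  rw [zpow_neg]
  field_simp

/-! ### Local orders of `G` on `ℍ` -/

theorem analyticAt_G (z0 : ℍ) : AnalyticAt ℂ (G ∘ ofComplex) z0 :=
  JLocalOrder.analyticAt_comp_ofComplex mdiff_G z0

theorem deriv_jFun_eventuallyEq (z0 : ℍ) :
    deriv (jFun ∘ ofComplex) =ᶠ[𝓝 (z0 : ℂ)] fun w => (2 * π * I) * (G ∘ ofComplex) w := by
  filter_upwards [isOpen_upperHalfPlaneSet.mem_nhds z0.im_pos] with w hw
  have h := (hasDerivAt_jFun_G ⟨w, hw⟩).deriv
  simp only [Function.comp_apply, ofComplex_apply_of_im_pos hw]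
  exact h

/-- The order of vanishing of `G` at `z0` is one less than that of `j - j z0`. -/
theorem analyticOrderAt_G (z0 : ℍ) :
    analyticOrderAt (G ∘ ofComplex) z0 + 1 =
      analyticOrderAt (fun z : ℂ => jFun (ofComplex z) - jFun z0) z0 := by
  have h1 := (JLocalOrder.analyticAt_jFun z0).analyticOrderAt_deriv_add_one
  have h2 : analyticOrderAt (deriv (jFun ∘ ofComplex)) (z0 : ℂ) =
      analyticOrderAt (G ∘ ofComplex) z0 := by
    rw [analyticOrderAt_congr (deriv_jFun_eventuallyEq z0)]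
    have hc : AnalyticAt ℂ (fun _ : ℂ => (2 * π * I : ℂ)) (z0 : ℂ) := analyticAt_const
    have hmul : (fun w => (2 * π * I) * (G ∘ ofComplex) w) =
        (fun _ : ℂ => (2 * π * I : ℂ)) * (G ∘ ofComplex) := rfl
    rw [hmul, analyticOrderAt_mul hc (analyticAt_G z0),
      hc.analyticOrderAt_eq_zero.mpr two_pi_I_ne_zero, zero_add]
  rw [← h2, h1]
  simp only [Function.comp_apply, ofComplex_apply]

theorem analyticOrderAt_G_ne_top (z0 : ℍ) : analyticOrderAt (G ∘ ofComplex) z0 ≠ ⊤ := by
  intro htop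
  have h := analyticOrderAt_G z0
  rw [htop, JLocalOrder.analyticOrderAt_jFun_sub] at h
  split_ifs at h <;> simp at h

/-! ### `G` at the cusps -/

theorem periodic_G : Function.Periodic (G ∘ ofComplex) (1 : ℝ) := by
  intro w
  have h4 := JLocalOrder.periodic_levelOne E₄ w
  have h6 := JLocalOrder.periodic_levelOne E₆ w
  have hΔ := SlashInvariantFormClass.periodic_comp_ofComplex CuspForm.discriminant
    one_mem_strictPeriods_SL w
  rw [CuspForm.coe_discriminant] at hΔ
  simp only [Function.comp_apply, G_apply] at h4 h6 hΔ ⊢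
  rw [h4, h6, hΔ]

theorem merAtCusp_G_one : MerAtCusp 1 G where
  per := by simpa using periodic_G
  hol := mdiff_G
  mer := by
    refine ⟨1, ?_⟩
    have ht : Tendsto (qh 1 ^ 1 * G) atImInfty (𝓝 (-1)) := by
      refine tendsto_qParam_mul_G.congr fun z => ?_
      simp only [Pi.mul_apply, Pi.pow_apply]
      rw [qh_pow_self]
    exact ht.isBigO_one ℝ

section GCusp

variable (h : ℕ) [NeZero h]

/-- `G` is meromorphic at the cusp `i∞` in every width. -/
theorem merAtCusp_G : MerAtCusp h G := (MerAtCusp.of_width_one (h := h) merAtCusp_G_one).1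

theorem tendsto_qh_pow_mul_G : Tendsto (qh h ^ h * G) atImInfty (𝓝 (-1)) := by
  refine tendsto_qParam_mul_G.congr fun z => ?_
  simp only [Pi.mul_apply, Pi.pow_apply]
  rw [qh_pow_self]

/-- In the parameter `u = exp (2πiτ/h)` the function `G` has a pole of order exactly `h`. -/
theorem order_cuspLaurent_G : (cuspLaurent h G).order = -(h : ℤ) :=
  order_cuspLaurent_eq_of_tendsto (merAtCusp_G h) (neg_ne_zero.mpr one_ne_zero)
    (tendsto_qh_pow_mul_G h)

end GCusp

end Fermat.Agent.S20.Dict.GFun
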