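/-
S20, block (L) dictionary, piece L.H (independent backup, helper44): holomorphy of the quotient
`ev a * G / ev b` at every point of `ℍ` for a regular differential `(a / b) d j`.
-/
import Fermat.Agent.S20.DictLocal
import Fermat.Agent.S20.HolQuotient
import Fermat.Agent.S20.Dict.GFun
import Fermat.Agent.S24.FinitePackage
import Fermat.Agent.S24.EmbFamily
import Fermat.Agent.S24.PlaceOfEmb

set_option autoImplicit false

open AlgebraicCurve KaehlerDifferential UpperHalfPlane
open scoped MatrixGroups Manifold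

noncomputable section

namespace Fermat.Agent.S20.Dict.HolPointB

open Fermat.Agent.S24 Fermat.Agent.S24.FieldGen Fermat.Agent.S24.FinitePackage
  Fermat.Agent.S24.FiniteDatum Fermat.Agent.S24.LaurentAux ModularCurve

variable [Algebra Kbar ℂ] {N : ℕ} [NeZero N] (D : EvData N)

theorem hmem (a : genAlg N) (g : SL(2, ℤ)) : (fun τ => D.ev a (g⁻¹ • τ)) ∈ holAlg :=
  comp_smul_mem_holAlg g⁻¹ (D.hol a)

/-- The embedding of `FBar N` into Laurent series given by expansion at the point `z0 ∈ ℍ`. -/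
def sigmaPt (z0 : ℍ) : FBar N →ₐ[Kbar] LaurentSeries ℂ :=
  EmbFamily.sigmaOf N D.ev holAlg (discHom z0) (hmem D) D.inj (discHom_injective z0) 1

theorem sigmaPt_incl (z0 : ℍ) (a : genAlg N) :
    sigmaPt D z0 (incl N a) = discHom z0 ⟨D.ev a, D.hol a⟩ := by
  rw [sigmaPt, EmbFamily.sigmaOf_incl]
  congr 1
  apply Subtype.ext
  funext τ
  simp

theorem sigmaPt_jBar (z0 : ℍ) :
    sigmaPt D z0 (jBar N) = discHom z0 ⟨jFun, jFun_mem_holAlg⟩ := by
  rw [jBar_eq, sigmaPt_incl]
  congr 1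
  apply Subtype.ext
  exact D.ev_j

theorem ev_ne_zero {a : genAlg N} (ha : a ≠ 0) : D.ev a ≠ 0 := fun h0 =>
  ha (D.inj (by rw [h0, map_zero]))

theorem mdiff_ev (a : genAlg N) : MDiff (D.ev a) := mem_holAlg_iff_mdiff.mp (D.hol a)

/-- The analytic order of a nonzero `ev a` at `z0` is finite and equals the order of its
expansion. -/
theorem exists_order_eq {a : genAlg N} (ha : a ≠ 0) (z0 : ℍ) :
    ∃ n : ℕ, analyticOrderAt (D.ev a ∘ ofComplex) (z0 : ℂ) = n ∧
      (sigmaPt D z0 (incl N a)).order = n := by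
  have hne := HolQuotient.analyticOrderAt_ne_top_of_ne_zero (mdiff_ev D a) (ev_ne_zero D ha) z0
  obtain ⟨n, hn⟩ := ENat.ne_top_iff_exists.mp hne
  refine ⟨n, hn.symm, ?_⟩
  rw [sigmaPt_incl]
  exact order_discHom z0 ⟨D.ev a, D.hol a⟩ hn.symm

/-- The expansion of `j` at `z0` has a derivative of order `e - 1`, `e` the order of
`j - j z0` at `z0`. -/
theorem order_lderiv_sigmaPt_jBar (z0 : ℍ) {e : ℕ}
    (he : analyticOrderAt (fun z : ℂ => jFun (ofComplex z) - jFun z0) (z0 : ℂ) = e) (he0 : e ≠ 0) :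
    lderiv (sigmaPt D z0 (jBar N)) ≠ 0 ∧ (lderiv (sigmaPt D z0 (jBar N))).order = (e : ℤ) - 1 := by
  set c : ℂ := jFun z0 with hc
  set J0 : holAlg := ⟨fun τ => jFun τ - c, jFun_sub_mem_holAlg c⟩ with hJ0
  have hJ : (⟨jFun, jFun_mem_holAlg⟩ : holAlg) = J0 + algebraMap ℂ holAlg c := by
    apply Subtype.ext
    funext τ
    show jFun τ = (jFun τ - c) + c
    ring
  have hord : (discHom z0 J0).order = e := order_discHom z0 J0 he
  have hne : discHom z0 J0 ≠ 0 := by
    intro h0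
    rw [h0, HahnSeries.order_zero] at hord
    exact he0 (by exact_mod_cast hord.symm)
  have ho : (discHom z0 J0).order ≠ 0 := by
    rw [hord]
    exact_mod_cast he0
  have hd := DiffOrd.order_derivative hne ho
  rw [sigmaPt_jBar, hJ, map_add, AlgHom.commutes, algebraMap_eq_C, DictLocal.lderiv_eq_derivative,
    map_add, DiffOrd.derivative_C, add_zero]
  rw [hord] at hd
  exact hd

/-- The order inequality at the point `z0`. -/
theorem order_le (hF : IsFunctionField1 Kbar (FBar N)) {G : ℍ → ℂ} (hG : MDiff G)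
    (hGord : ∀ z0 : ℍ, analyticOrderAt (G ∘ ofComplex) (z0 : ℂ) + 1 =
      analyticOrderAt (fun z : ℂ => jFun (ofComplex z) - jFun z0) (z0 : ℂ))
    (a b : genAlg N) (hb : b ≠ 0)
    (hreg : ∀ v : Place Kbar (FBar N), 0 ≤ v.ordDifferential
      ((incl N a / incl N b) • KaehlerDifferential.D Kbar (FBar N) (jBar N)))
    (z0 : ℍ) :
    analyticOrderAt (D.ev b ∘ ofComplex) (z0 : ℂ) ≤
      analyticOrderAt ((D.ev a * G) ∘ ofComplex) (z0 : ℂ) := by
  by_cases ha : a = 0
  · have h0 : (D.ev a * G) ∘ ofComplex = fun _ => (0 : ℂ) := by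
      funext z
      simp [ha]
    rw [h0, analyticOrderAt_eq_top.mpr (Filter.Eventually.of_forall fun _ => rfl)]
    exact le_top
  -- the finite orders
  obtain ⟨nA, hnA, hσA⟩ := exists_order_eq D ha z0
  obtain ⟨nB, hnB, hσB⟩ := exists_order_eq D hb z0
  have hAan : AnalyticAt ℂ (D.ev a ∘ ofComplex) (z0 : ℂ) :=
    JLocalOrder.analyticAt_comp_ofComplex (mdiff_ev D a) z0
  have hGan : AnalyticAt ℂ (G ∘ ofComplex) (z0 : ℂ) :=
    JLocalOrder.analyticAt_comp_ofComplex hG z0
  have hmul : (D.ev a * G) ∘ ofComplex = (D.ev a ∘ ofComplex) * (G ∘ ofComplex) := rfl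
  rw [hmul, analyticOrderAt_mul hAan hGan, hnA, hnB]
  -- the order `e` of `j - j z0`
  have he := JLocalOrder.analyticOrderAt_jFun_sub z0
  obtain ⟨e, he', he0⟩ : ∃ e : ℕ,
      analyticOrderAt (fun z : ℂ => jFun (ofComplex z) - jFun z0) (z0 : ℂ) = e ∧ e ≠ 0 := by
    split_ifs at he
    · exact ⟨3, he, by norm_num⟩
    · exact ⟨2, he, by norm_num⟩
    · exact ⟨1, he, by norm_num⟩
  have hG1 := hGord z0
  rw [he'] at hG1
  have hGtop : analyticOrderAt (G ∘ ofComplex) (z0 : ℂ) ≠ ⊤ := by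
    intro htop
    rw [htop] at hG1
    simp at hG1
  obtain ⟨nG, hnG⟩ := ENat.ne_top_iff_exists.mp hGtop
  rw [← hnG] at hG1 ⊢
  have hG2 : nG + 1 = e := by exact_mod_cast hG1
  set σ := sigmaPt D z0 with hσ
  by_cases hpl : ∃ y : FBar N, y ≠ 0 ∧ (σ y).order ≠ 0
  · -- the place induced by `σ`
    obtain ⟨m, hm, hord⟩ := exists_order_eq_mul_ord σ hpl
    have hspan := DictLocal.hspan_of_isFunctionField1 hF
    have hia : incl N a ≠ 0 := incl_ne_zero N ha
    have hib : incl N b ≠ 0 := incl_ne_zero N hb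
    have hh : incl N a / incl N b ≠ 0 := div_ne_zero hia hib
    have hd := order_lderiv_sigmaPt_jBar D z0 he' he0
    have hσh : σ (incl N a / incl N b) ≠ 0 := emb_ne_zero σ hh
    rcases DictLocal.le_order_mul_lderiv_of_regular (placeOfEmb σ hpl) σ m hm hord hspan
      (incl N a / incl N b) (jBar N) (hreg _) with h0 | h1
    · exact absurd h0 (mul_ne_zero hσh hd.1)
    · rw [HahnSeries.order_mul hσh hd.1, hd.2, map_div₀,
        LaurentOrd.order_div (emb_ne_zero σ hia) (emb_ne_zero σ hib), hσA, hσB] at h1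
      have : (nB : ℤ) ≤ nA + nG := by
        have : (e : ℤ) = nG + 1 := by exact_mod_cast hG2.symm
        omega
      exact_mod_cast this
  · have hpl' : ∀ y : FBar N, y ≠ 0 → (σ y).order = 0 := by
      intro y hy
      by_contra h
      exact hpl ⟨y, hy, h⟩
    have hB0 : (nB : ℤ) = 0 := by
      rw [← hσB]
      exact hpl' _ (incl_ne_zero N hb)
    have : nB = 0 := by exact_mod_cast hB0
    rw [this]
    simp

/-- **L.H.** For a differential `(a / b) d j` of `FBar N` regular at every place, the function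
`ev a * G / ev b` is holomorphic on `ℍ`. -/
theorem exists_mdiff_mul_eq (hF : IsFunctionField1 Kbar (FBar N)) {G : ℍ → ℂ} (hG : MDiff G)
    (hGord : ∀ z0 : ℍ, analyticOrderAt (G ∘ ofComplex) (z0 : ℂ) + 1 =
      analyticOrderAt (fun z : ℂ => jFun (ofComplex z) - jFun z0) (z0 : ℂ))
    (a b : genAlg N) (hb : b ≠ 0)
    (hreg : ∀ v : Place Kbar (FBar N), 0 ≤ v.ordDifferential
      ((incl N a / incl N b) • KaehlerDifferential.D Kbar (FBar N) (jBar N))) :
    ∃ c : ℍ → ℂ, MDiff c ∧ D.ev a * G = c * D.ev b :=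
  HolQuotient.exists_mdiff_mul_eq ((mdiff_ev D a).mul hG) (mdiff_ev D b) (ev_ne_zero D hb)
    (order_le D hF hG hGord a b hb hreg)

/-- **L.H** for the concrete `G = -(E₄² E₆)/Δ`. -/
theorem exists_mdiff_mul_eq_G (hF : IsFunctionField1 Kbar (FBar N))
    (a b : genAlg N) (hb : b ≠ 0)
    (hreg : ∀ v : Place Kbar (FBar N), 0 ≤ v.ordDifferential
      ((incl N a / incl N b) • KaehlerDifferential.D Kbar (FBar N) (jBar N))) :
    ∃ c : ℍ → ℂ, MDiff c ∧ D.ev a * GFun.G = c * D.ev b :=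
  exists_mdiff_mul_eq D hF GFun.mdiff_G GFun.analyticOrderAt_G a b hb hreg

end Fermat.Agent.S20.Dict.HolPointB
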