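import Mathlib
import Fermat.Agent.S20.Dict.Assemble
import Fermat.Agent.S20.Dict.HolPointB
import Fermat.Agent.S20.Dict.EvHyps
import Fermat.Agent.S20.Dict.GFun
import Fermat.Agent.S20.Lower
import Fermat.Agent.S24.BlockBFinal
import Fermat.Agent.S24.AnalyticRealization
import Fermat.Agent.S21.FromLower

/-!
# S20 (D): the dictionary, unconditionally

`Lower.DictLower N`: any finite `ℚ̄`-linearly independent family of regular differentials of the
function field of `X₀(N)` is bounded in size by `dim S₂(Γ₀(N))`.

Pure instantiation of `Dict.Assemble.exists_linearIndependent_cuspForm` with the concrete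
evaluation datum `EvDataInst.evData N`, the weight-two form `GFun.G = (2πi)⁻¹ j'`, the holomorphy
statement `HolPointB.exists_mdiff_mul_eq_G` and the cusp hypotheses `EvHyps.hcusp / hexp`.
-/

set_option autoImplicit false

open AlgebraicCurve KaehlerDifferential Module ModularCurve

namespace Fermat.Agent.S20.Dict.DictLowerFinal

open Fermat.Agent.S24 Fermat.Agent.S20.Lower

/-- **The dictionary.** -/
theorem dictLower (N : ℕ) [NeZero N] : DictLower N := by
  classical
  letI : Algebra Kbar ℂ := AnalyticRealization.algebraKbarComplex
  intro n η hη hreg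
  have hB : ModularRamificationData N := BlockBFinal.modularRamificationData N
  have hF : IsFunctionField1 Kbar (FBar N) := ⟨jBar N, hB.transcendental, hB.finite⟩
  obtain ⟨f, hf⟩ := Assemble.exists_linearIndependent_cuspForm (EvDataInst.evData N)
    (EvHyps.hcusp N) (EvHyps.hexp N) hF hB.transcendental
    GFun.G_ne_zero GFun.mdiff_G GFun.G_slash (GFun.merAtCusp_G N) (GFun.order_cuspLaurent_G N)
    (GFun.order_cuspLaurent_jFun N)
    (fun a b hb hreg' => HolPointB.exists_mdiff_mul_eq_G (EvDataInst.evData N) hF a b hb hreg')
    η hη hreg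
  haveI : Module.Finite ℂ (CuspForm (CongruenceSubgroup.Gamma0 N) 2) :=
    Fermat.Agent.S21.FromLower.finite_cuspForm N
  simpa using hf.fintype_card_le_finrank

end Fermat.Agent.S20.Dict.DictLowerFinal
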