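/-
S20, block (L): the order of the Laurent expansion at the cusp from a limit.

If `f` is meromorphic at the cusp of width `h` and `u ^ m * f` tends to a nonzero limit at `i∞`
(`u = exp (2πiτ/h)`), then the Laurent expansion of `f` has order `-m`.
-/
import Mathlib
import Fermat.Agent.S24.CuspExpansion
import Fermat.Agent.S20.Dict.CuspZero

set_option autoImplicit false

namespace Fermat.Agent.S20.Dict.CuspOrder

open UpperHalfPlane Filter Function Complex
open Fermat.Agent.S24.CuspExpansion Fermat.Agent.S20.Dict.CuspZero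
open scoped Topology

variable {h : ℕ} [NeZero h]

theorem tendsto_qh_zpow_of_pos {d : ℤ} (hd : 0 < d) :
    Tendsto (fun τ => qh h τ ^ d) atImInfty (𝓝 0) := by
  obtain ⟨n, rfl⟩ : ∃ n : ℕ, d = (n : ℤ) + 1 := ⟨(d - 1).toNat, by omega⟩
  have h1 : Tendsto (fun τ => qh h τ ^ (n + 1)) atImInfty (𝓝 (0 ^ (n + 1))) :=
    (tendsto_qh (h := h)).pow (n + 1)
  rw [zero_pow (Nat.succ_ne_zero n)] at h1
  refine h1.congr fun τ => ?_
  rw [← zpow_natCast]
  push_cast
  rfl

/-- Integer version. -/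
theorem order_cuspLaurent_eq_of_tendsto_zpow {f : ℍ → ℂ} (hf : MerAtCusp h f) {m : ℤ} {c : ℂ}
    (hc : c ≠ 0) (ht : Tendsto (fun τ => qh h τ ^ m * f τ) atImInfty (𝓝 c)) :
    (cuspLaurent h f).order = -m := by
  have hf0 : f ≠ 0 := by
    rintro rfl
    have : Tendsto (fun τ : ℍ => qh h τ ^ m * (0 : ℍ → ℂ) τ) atImInfty (𝓝 0) := by
      simp
    exact hc (tendsto_nhds_unique ht this)
  obtain ⟨G₁, hG₁c, hG₁0, hG₁⟩ := exists_zpow_factor hf hf0
  set k : ℤ := (cuspLaurent h f).order with hk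
  have hG : Tendsto (fun τ => G₁ (qh h τ)) atImInfty (𝓝 (G₁ 0)) :=
    hG₁c.tendsto.comp tendsto_qh
  -- `u ^ (k + m) * G₁(u) → c`
  have h1 : Tendsto (fun τ => qh h τ ^ (k + m) * G₁ (qh h τ)) atImInfty (𝓝 c) := by
    refine ht.congr' ?_
    filter_upwards [hG₁] with τ hτ
    rw [hτ, zpow_add₀ (qh_ne_zero h τ)]
    ring
  -- hence `u ^ (k + m) → c / G₁ 0 ≠ 0`
  have h2 : Tendsto (fun τ => qh h τ ^ (k + m)) atImInfty (𝓝 (c / G₁ 0)) := by
    have := h1.div hG hG₁0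
    refine this.congr' ?_
    filter_upwards [hG.eventually_ne hG₁0] with τ hτ
    simp only [Pi.div_apply]
    rw [mul_div_assoc, div_self hτ, mul_one]
  have hne : c / G₁ 0 ≠ 0 := div_ne_zero hc hG₁0
  rcases lt_trichotomy (k + m) 0 with hneg | hzero | hpos'
  · exfalso
    have h3 : Tendsto (fun τ => qh h τ ^ (-(k + m))) atImInfty (𝓝 0) :=
      tendsto_qh_zpow_of_pos (by omega)
    have h4 := h2.mul h3
    rw [mul_zero] at h4
    have h5 : Tendsto (fun _ : ℍ => (1 : ℂ)) atImInfty (𝓝 0) := by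
      refine h4.congr fun τ => ?_
      rw [← zpow_add₀ (qh_ne_zero h τ), add_neg_cancel, zpow_zero]
    exact one_ne_zero (tendsto_nhds_unique tendsto_const_nhds h5)
  · omega
  · exfalso
    exact hne (tendsto_nhds_unique h2 (tendsto_qh_zpow_of_pos hpos'))

/-- The helper lemma of block map v1 (report 701). -/
theorem order_cuspLaurent_eq_of_tendsto {f : ℍ → ℂ} (hf : MerAtCusp h f) {m : ℕ} {c : ℂ}
    (hc : c ≠ 0) (ht : Tendsto (qh h ^ m * f) atImInfty (𝓝 c)) :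
    (cuspLaurent h f).order = -(m : ℤ) := by
  refine order_cuspLaurent_eq_of_tendsto_zpow hf hc (ht.congr fun τ => ?_)
  simp only [Pi.mul_apply, Pi.pow_apply, zpow_natCast]

/-- Conversely, `u ^ (-ord) * f` tends to a nonzero limit. -/
theorem exists_tendsto_zpow_mul {f : ℍ → ℂ} (hf : MerAtCusp h f) (hf0 : f ≠ 0) :
    ∃ c : ℂ, c ≠ 0 ∧
      Tendsto (fun τ => qh h τ ^ (-(cuspLaurent h f).order) * f τ) atImInfty (𝓝 c) := by
  obtain ⟨G₁, hG₁c, hG₁0, hG₁⟩ := exists_zpow_factor hf hf0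
  refine ⟨G₁ 0, hG₁0, ?_⟩
  have hG : Tendsto (fun τ => G₁ (qh h τ)) atImInfty (𝓝 (G₁ 0)) :=
    hG₁c.tendsto.comp tendsto_qh
  refine hG.congr' ?_
  filter_upwards [hG₁] with τ hτ
  rw [hτ, ← mul_assoc, ← zpow_add₀ (qh_ne_zero h τ), neg_add_cancel, zpow_zero, one_mul]

end Fermat.Agent.S20.Dict.CuspOrder
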