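import Fermat.Agent.S20.Dict.LocalAlg
import Fermat.Agent.S24.FinitePackage
import Fermat.Agent.S24.CuspExpansion
import Fermat.Agent.S24.EmbFamily

/-!
# S20, block (L), piece L.C: the order inequality at the cusps

For a differential `(a / b) d j` of `FBar N` which is regular at every place, the expansions at the
cusp `g ∞` satisfy `ord (B) < ord (A * G)`, where `A = ev a ∘ g⁻¹`, `B = ev b ∘ g⁻¹` and `G` is any
function meromorphic at `i∞` with a pole of exact order `N` in the parameter `q_N` (e.g. `D j`).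
-/

set_option autoImplicit false

open AlgebraicCurve KaehlerDifferential UpperHalfPlane
open scoped MatrixGroups

noncomputable section

namespace Fermat.Agent.S20.Dict.CuspPoint

open Fermat.Agent.S24 Fermat.Agent.S24.FieldGen Fermat.Agent.S24.FinitePackage
  Fermat.Agent.S24.CuspExpansion ModularCurve

variable [Algebra Kbar ℂ] {N : ℕ} [NeZero N] (D : EvData N)
  (hcusp : ∀ a (g : SL(2, ℤ)), (fun τ => D.ev a (g⁻¹ • τ)) ∈ merCuspAlg N)

/-- The embedding of `FBar N` into Laurent series given by expansion at the cusp `g ∞`. -/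
def sigmaCusp (g : SL(2, ℤ)) : FBar N →ₐ[Kbar] LaurentSeries ℂ :=
  EmbFamily.sigmaOf N D.ev (merCuspAlg N) (cuspLaurentHom N) hcusp D.inj
    (cuspLaurentHom_injective N) g

theorem sigmaCusp_incl (g : SL(2, ℤ)) (a : genAlg N) :
    sigmaCusp D hcusp g (incl N a) = cuspLaurent N (fun τ => D.ev a (g⁻¹ • τ)) := by
  rw [sigmaCusp, EmbFamily.sigmaOf_incl]
  rfl

theorem sigmaCusp_jBar (g : SL(2, ℤ)) :
    sigmaCusp D hcusp g (jBar N) = cuspLaurent N jFun := by
  rw [jBar_eq, sigmaCusp_incl]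
  congr 1
  funext τ
  rw [D.ev_j, jFun_smul]

theorem ev_comp_ne_zero {a : genAlg N} (ha : a ≠ 0) (g : SL(2, ℤ)) :
    (fun τ => D.ev a (g⁻¹ • τ)) ≠ 0 := by
  intro h0
  apply ha
  apply D.inj
  rw [map_zero]
  funext τ
  have := congrFun h0 (g • τ)
  simpa using this

include hcusp in
/-- The order inequality at the cusp `g ∞`. -/
theorem order_lt (hF : IsFunctionField1 Kbar (FBar N)) {G : ℍ → ℂ}
    (hGmer : MerAtCusp N G) (hGord : (cuspLaurent N G).order = -(N : ℤ))
    (hjord : (cuspLaurent N jFun).order = -(N : ℤ))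
    {a b : genAlg N} (ha : a ≠ 0) (hb : b ≠ 0)
    (hreg : ∀ v : Place Kbar (FBar N), 0 ≤ v.ordDifferential
      ((incl N a / incl N b) • KaehlerDifferential.D Kbar (FBar N) (jBar N)))
    (g : SL(2, ℤ)) :
    (cuspLaurent N (fun τ => D.ev b (g⁻¹ • τ))).order <
      (cuspLaurent N ((fun τ => D.ev a (g⁻¹ • τ)) * G)).order := by
  have hN : (0 : ℤ) < (N : ℤ) := by exact_mod_cast Nat.pos_of_ne_zero (NeZero.ne N)
  set σ := sigmaCusp D hcusp g with hσ
  have hy : (σ (jBar N)).order ≠ 0 := by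
    rw [hσ, sigmaCusp_jBar, hjord]
    omega
  have hia : incl N a ≠ 0 := incl_ne_zero N ha
  have hib : incl N b ≠ 0 := incl_ne_zero N hb
  have hh : incl N a / incl N b ≠ 0 := div_ne_zero hia hib
  have h1 := LocalAlg.one_le_order_add_order hF σ hy hh hreg
  have hA : MerAtCusp N (fun τ => D.ev a (g⁻¹ • τ)) := hcusp a g
  have hA0 : cuspLaurent N (fun τ => D.ev a (g⁻¹ • τ)) ≠ 0 := fun h0 =>
    ev_comp_ne_zero D ha g ((cuspLaurent_eq_zero_iff hA).mp h0)
  have hG0 : cuspLaurent N G ≠ 0 := by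
    intro h0
    rw [h0, HahnSeries.order_zero] at hGord
    omega
  rw [map_div₀, LaurentOrd.order_div (emb_ne_zero σ hia) (emb_ne_zero σ hib), hσ,
    sigmaCusp_incl, sigmaCusp_incl, sigmaCusp_jBar, hjord] at h1
  rw [cuspLaurent_mul hA hGmer, HahnSeries.order_mul hA0 hG0, hGord]
  omega

end Fermat.Agent.S20.Dict.CuspPoint
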