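import Fermat.Agent.S24.EvDataInst
import Fermat.Agent.S24.CuspPackage
import Fermat.Agent.S24.CuspGen

/-!
# S20, dictionary (L): the hypotheses `hcusp`, `hexp` for the concrete `evData N`

For the concrete analytic realisation `S24.EvDataInst.evData N : EvData N` of S24 block B:

* `hcusp`: every translate `τ ↦ ev a (g⁻¹ • τ)` lies in `merCuspAlg N` (period `N`, meromorphic
  at `i∞`);
* `hexp`: `ev a` is meromorphic at `i∞` of width `1` and its expansion is the base change
  `ℚ̄((q)) → ℂ((q))` of the series `a` itself.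

These are the two inputs of `Fermat.Agent.S20.Dict` (helper4's block map, report 701) that
depend on the concrete `EvData`.
-/

set_option autoImplicit false

open ModularCurve UpperHalfPlane
open scoped MatrixGroups

namespace Fermat.Agent.S20.Dict.EvCuspHyp

open Fermat.Agent.S24 Fermat.Agent.S24.FieldGen Fermat.Agent.S24.CuspExpansion
  Fermat.Agent.S24.FinitePackage Fermat.Agent.S24.EvDataInst

variable [Algebra Kbar ℂ] (N : ℕ) [NeZero N]

/-- The concrete evaluation sends the generator `J_d` to `τ ↦ j(d τ)`. -/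
theorem evData_ev_genJ {d : ℕ} (hd : d ∣ N) :
    (evData N).ev ⟨genJ d, genJ_mem_genAlg hd⟩ = jD d :=
  evFun_genJ N hd

/-- Translates by an arbitrary `g : SL(2, ℤ)` (no inverse). -/
theorem evData_translate_mem (a : genAlg N) (g : SL(2, ℤ)) :
    (fun τ : ℍ => (evData N).ev a (g • τ)) ∈ merCuspAlg N := by
  refine CuspPackage.translate_mem (evData N).ev (merCuspAlg N) ?_ a g
  intro d hd g
  have h : (fun τ : ℍ => (evData N).ev ⟨genJ d, genJ_mem_genAlg hd⟩ (g • τ))
      = fun τ : ℍ => jD d (g • τ) := by
    funext τ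
    rw [evData_ev_genJ N hd]
  rw [h]
  exact CuspGen.jD_comp_mem N d hd g

/-- **`hcusp`** in the exact shape of `Dict` (report 701). -/
theorem hcusp (a : genAlg N) (g : SL(2, ℤ)) :
    (fun t : ℍ => (evData N).ev a (g⁻¹ • t)) ∈ merCuspAlg N :=
  evData_translate_mem N a g⁻¹

/-- **`hexp`** in the exact shape of `Dict` (report 701). -/
theorem hexp (a : genAlg N) :
    MerAtCusp 1 ((evData N).ev a) ∧
      cuspLaurent 1 ((evData N).ev a)
        = ModularCurve.coeffMap (algebraMap Kbar ℂ) (a : LaurentSeries Kbar) := by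
  refine ⟨evFun_merAtCusp N a, ?_⟩
  have h := cuspHomK_evR N a
  rw [cuspHomK_apply, coeffMapAlg_apply] at h
  exact h

/-- `MerAtCusp` form of `hcusp`. -/
theorem merAtCusp_translate (a : genAlg N) (g : SL(2, ℤ)) :
    MerAtCusp N (fun t : ℍ => (evData N).ev a (g • t)) :=
  (mem_merCuspAlg).mp (evData_translate_mem N a g)

end Fermat.Agent.S20.Dict.EvCuspHyp
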