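import Fermat.Agent.S20.DictLocal
import Fermat.Agent.S20.HolQuotient
import Fermat.Agent.S24.FinitePackage
import Fermat.Agent.S24.EmbFamily
import Fermat.Agent.S24.PlaceOfEmb

/-!
# S20, block (L), piece L.H: holomorphy at the points of `ℍ`

For a differential `(a / b) d j` of `FBar N` which is regular at every place, the function
`ev a * G / ev b` is holomorphic on `ℍ`, where `G` is any holomorphic function whose order at each
`z0` is one less than the order of `j - j z0` (e.g. `G = D j`).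
-/

set_option autoImplicit false

open AlgebraicCurve KaehlerDifferential UpperHalfPlane
open scoped MatrixGroups Manifold

noncomputable section

namespace Fermat.Agent.S20.Dict.HolPointA

open Fermat.Agent.S24 Fermat.Agent.S24.FieldGen Fermat.Agent.S24.FinitePackage
  Fermat.Agent.S24.FiniteDatum Fermat.Agent.S24.LaurentAux ModularCurve

variable [Algebra Kbar ℂ] {N : ℕ} [NeZero N] (D : EvData N)

set_option linter.unusedSectionVars false

theorem hmem (a : genAlg N) (g : SL(2, ℤ)) : (fun τ => D.ev a (g⁻¹ • τ)) ∈ holAlg :=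
  comp_smul_mem_holAlg g⁻¹ (D.hol a)

/-- The embedding of `FBar N` into Laurent series given by expansion at `z0 ∈ ℍ`. -/
def sigmaPt (z0 : ℍ) : FBar N →ₐ[Kbar] LaurentSeries ℂ :=
  EmbFamily.sigmaOf N D.ev holAlg (discHom z0) (hmem D) D.inj (discHom_injective z0) 1

theorem sigmaPt_incl (z0 : ℍ) (a : genAlg N) :
    sigmaPt D z0 (incl N a) = discHom z0 ⟨D.ev a, D.hol a⟩ := by
  rw [sigmaPt, EmbFamily.sigmaOf_incl]
  congr 1
  apply Subtype.ext
  funext τ
  simp

theorem mdiff_ev (a : genAlg N) : MDiff (D.ev a) := mem_holAlg_iff_mdiff.mp (D.hol a)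

theorem ev_ne_zero {b : genAlg N} (hb : b ≠ 0) : D.ev b ≠ 0 := fun h =>
  hb (D.inj (by rw [h, map_zero]))

/-- Order of the expansion of a nonzero element of `genAlg N`. -/
theorem order_sigmaPt_incl (z0 : ℍ) {a : genAlg N} (ha : a ≠ 0) {n : ℕ}
    (hn : analyticOrderAt (D.ev a ∘ ofComplex) (z0 : ℂ) = n) :
    (sigmaPt D z0 (incl N a)).order = n := by
  rw [sigmaPt_incl]
  exact order_discHom z0 ⟨D.ev a, D.hol a⟩ hn

/-- The formal derivative of the expansion of `j` at `z0`: it is nonzero and its order is one less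
than the order of `j - j z0` at `z0`. -/
theorem lderiv_sigmaPt_jBar (z0 : ℍ) {e : ℕ}
    (he : analyticOrderAt (fun z : ℂ => jFun (ofComplex z) - jFun z0) (z0 : ℂ) = e)
    (he0 : e ≠ 0) :
    lderiv (sigmaPt D z0 (jBar N)) ≠ 0 ∧
      (lderiv (sigmaPt D z0 (jBar N))).order = (e : ℤ) - 1 := by
  have h1 : sigmaPt D z0 (jBar N) = discHom z0 ⟨jFun, jFun_mem_holAlg⟩ := by
    rw [jBar_eq, sigmaPt_incl]
    congr 1
    apply Subtype.ext
    exact D.ev_j
  have h2 : (⟨jFun, jFun_mem_holAlg⟩ : holAlg) =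
      ⟨fun τ => jFun τ - jFun z0, jFun_sub_mem_holAlg (jFun z0)⟩ +
        algebraMap ℂ holAlg (jFun z0) := by
    apply Subtype.ext
    funext τ
    show jFun τ = (jFun τ - jFun z0) + jFun z0
    ring
  set ξ : LaurentSeries ℂ := discHom z0 ⟨fun τ => jFun τ - jFun z0,
    jFun_sub_mem_holAlg (jFun z0)⟩ with hξ
  have hξord : ξ.order = e := order_discHom z0 _ he
  have hξ0 : ξ ≠ 0 := by
    intro h0
    rw [h0, HahnSeries.order_zero] at hξord
    exact he0 (by exact_mod_cast hξord.symm)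
  have hd := DiffOrd.order_derivative hξ0 (by rw [hξord]; exact_mod_cast he0)
  rw [h1, h2, map_add, AlgHom.commutes, algebraMap_eq_C,
    Fermat.Agent.S20.DictLocal.lderiv_eq_derivative, map_add, DiffOrd.derivative_C, add_zero, ← hξ]
  refine ⟨hd.1, ?_⟩
  rw [hd.2, hξord]

/-- **L.H, pointwise form.** -/
theorem analyticOrderAt_le (hF : IsFunctionField1 Kbar (FBar N)) {G : ℍ → ℂ} (hG : MDiff G)
    (hGord : ∀ z0 : ℍ, analyticOrderAt (G ∘ ofComplex) (z0 : ℂ) + 1 =
      analyticOrderAt (fun z : ℂ => jFun (ofComplex z) - jFun z0) (z0 : ℂ))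
    (a b : genAlg N) (hb : b ≠ 0)
    (hreg : ∀ v : Place Kbar (FBar N), 0 ≤ v.ordDifferential
      ((incl N a / incl N b) • KaehlerDifferential.D Kbar (FBar N) (jBar N)))
    (z0 : ℍ) :
    analyticOrderAt (D.ev b ∘ ofComplex) (z0 : ℂ) ≤
      analyticOrderAt ((D.ev a * G) ∘ ofComplex) (z0 : ℂ) := by
  have hanA : AnalyticAt ℂ (D.ev a ∘ ofComplex) (z0 : ℂ) :=
    (UpperHalfPlane.mdifferentiable_iff.mp (mdiff_ev D a)).analyticAt
      (isOpen_upperHalfPlaneSet.mem_nhds z0.im_pos)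
  have hanG : AnalyticAt ℂ (G ∘ ofComplex) (z0 : ℂ) :=
    (UpperHalfPlane.mdifferentiable_iff.mp hG).analyticAt
      (isOpen_upperHalfPlaneSet.mem_nhds z0.im_pos)
  have hprod : (D.ev a * G) ∘ ofComplex = (D.ev a ∘ ofComplex) * (G ∘ ofComplex) := rfl
  rw [hprod, analyticOrderAt_mul hanA hanG]
  by_cases ha : a = 0
  · have h0 : analyticOrderAt (D.ev a ∘ ofComplex) (z0 : ℂ) = ⊤ := by
      rw [analyticOrderAt_eq_top]
      refine Filter.Eventually.of_forall fun z => ?_
      rw [ha, map_zero]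
      rfl
    rw [h0, top_add]
    exact le_top
  -- finite orders
  obtain ⟨nA, hnA⟩ := ENat.ne_top_iff_exists.mp
    (HolQuotient.analyticOrderAt_ne_top_of_ne_zero (mdiff_ev D a) (ev_ne_zero D ha) z0)
  obtain ⟨nB, hnB⟩ := ENat.ne_top_iff_exists.mp
    (HolQuotient.analyticOrderAt_ne_top_of_ne_zero (mdiff_ev D b) (ev_ne_zero D hb) z0)
  -- the order `e` of `j - j z0`
  have hGz := hGord z0
  have hGtop : analyticOrderAt (G ∘ ofComplex) (z0 : ℂ) ≠ ⊤ := by
    intro htop
    rw [htop, top_add] at hGz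
    have hj : (fun τ => jFun τ - jFun z0) ≠ 0 := by
      intro h0
      obtain ⟨τ, hτ⟩ := jFun_surjective (jFun z0 + 1)
      have := congrFun h0 τ
      simp only [Pi.zero_apply] at this
      rw [hτ] at this
      simp at this
    have hjm : MDiff (fun τ => jFun τ - jFun z0) :=
      mem_holAlg_iff_mdiff.mp (jFun_sub_mem_holAlg (jFun z0))
    exact HolQuotient.analyticOrderAt_ne_top_of_ne_zero hjm hj z0 hGz.symm
  obtain ⟨nG, hnG⟩ := ENat.ne_top_iff_exists.mp hGtop
  rw [← hnA, ← hnB, ← hnG]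
  rw [← hnG] at hGz
  have he : analyticOrderAt (fun z : ℂ => jFun (ofComplex z) - jFun z0) (z0 : ℂ) = ((nG + 1 : ℕ) : ℕ∞) := by
    rw [← hGz]
    push_cast
    rfl
  -- the embedding
  set σ := sigmaPt D z0 with hσ
  have hia : incl N a ≠ 0 := incl_ne_zero N ha
  have hib : incl N b ≠ 0 := incl_ne_zero N hb
  have hh : incl N a / incl N b ≠ 0 := div_ne_zero hia hib
  have hordh : (σ (incl N a / incl N b)).order = (nA : ℤ) - nB := by
    rw [map_div₀, LaurentOrd.order_div (emb_ne_zero σ hia) (emb_ne_zero σ hib), hσ,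
      order_sigmaPt_incl D z0 ha hnA.symm, order_sigmaPt_incl D z0 hb hnB.symm]
  suffices hsuff : (nB : ℤ) ≤ nA + nG by exact_mod_cast hsuff
  by_cases hpl : ∃ y : FBar N, y ≠ 0 ∧ (σ y).order ≠ 0
  · -- a genuine place
    obtain ⟨m, hm, hord⟩ := exists_order_eq_mul_ord σ hpl
    have hspan := Fermat.Agent.S20.DictLocal.hspan_of_isFunctionField1 hF
    obtain ⟨hl0, hlo⟩ := lderiv_sigmaPt_jBar D z0 he (Nat.succ_ne_zero nG)
    rcases Fermat.Agent.S20.DictLocal.le_order_mul_lderiv_of_regular (placeOfEmb σ hpl) σ m hm hord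
      hspan (incl N a / incl N b) (jBar N) (hreg _) with h0 | hle
    · exfalso
      rcases mul_eq_zero.mp h0 with h1 | h1
      · exact emb_ne_zero σ hh h1
      · exact hl0 h1
    · rw [HahnSeries.order_mul (emb_ne_zero σ hh) hl0, hordh, hlo] at hle
      push_cast at hle
      omega
  · -- the trivial valuation
    push Not at hpl
    have := hpl _ hh
    rw [hordh] at this
    omega

/-- **L.H.** The quotient `ev a * G / ev b` is holomorphic on `ℍ`. -/
theorem exists_mdiff_mul_eq (hF : IsFunctionField1 Kbar (FBar N)) {G : ℍ → ℂ} (hG : MDiff G)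
    (hGord : ∀ z0 : ℍ, analyticOrderAt (G ∘ ofComplex) (z0 : ℂ) + 1 =
      analyticOrderAt (fun z : ℂ => jFun (ofComplex z) - jFun z0) (z0 : ℂ))
    (a b : genAlg N) (hb : b ≠ 0)
    (hreg : ∀ v : Place Kbar (FBar N), 0 ≤ v.ordDifferential
      ((incl N a / incl N b) • KaehlerDifferential.D Kbar (FBar N) (jBar N))) :
    ∃ c : ℍ → ℂ, MDiff c ∧ D.ev a * G = c * D.ev b :=
  HolQuotient.exists_mdiff_mul_eq ((mdiff_ev D a).mul hG) (mdiff_ev D b) (ev_ne_zero D hb)
    (analyticOrderAt_le D hF hG hGord a b hb hreg)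

end Fermat.Agent.S20.Dict.HolPointA
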