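import Fermat.Agent.S20.Dict.Assemble
import Fermat.Agent.S20.Dict.GFun
import Fermat.Agent.S20.Dict.EvHyps
import Fermat.Agent.S20.Dict.HolPointA
import Fermat.Agent.S20.Lower
import Fermat.Agent.S21.FromLower
import Fermat.Agent.S24.BlockBFinal

/-!
# S20, block (L): the dictionary, final statement

`Lower.DictLower N`: a `Kbar`-linearly independent family of `n` everywhere regular differentials
of the function field of `X₀(N)` forces `n ≤ dim S₂(Γ₀(N))`.
-/

set_option autoImplicit false

open AlgebraicCurve KaehlerDifferential UpperHalfPlane CongruenceSubgroup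
open scoped MatrixGroups

namespace Fermat.Agent.S20.Dict.Final

open Fermat.Agent.S24 Fermat.Agent.S24.FieldGen Fermat.Agent.S24.FinitePackage
  Fermat.Agent.S24.CuspExpansion

/-- The dictionary for a fixed embedding `ℚ̄ → ℂ`. -/
theorem exists_linearIndependent_cuspForm [Algebra Kbar ℂ] (N : ℕ) [NeZero N]
    {ι : Type*} [Fintype ι] (ω : ι → Ω[FBar N⁄Kbar]) (hω : LinearIndependent Kbar ω)
    (hreg : ∀ (i : ι) (v : Place Kbar (FBar N)), 0 ≤ v.ordDifferential (ω i)) :
    ∃ f : ι → CuspForm (Gamma0 N) 2, LinearIndependent ℂ f := by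
  have hB := BlockB.modularRamificationData N
  have hF : IsFunctionField1 Kbar (FBar N) := ⟨jBar N, hB.transcendental, hB.finite⟩
  exact Assemble.exists_linearIndependent_cuspForm (EvDataInst.evData N) (EvHyps.hcusp N)
    (EvHyps.hexp N) hF hB.transcendental GFun.G_ne_zero GFun.mdiff_G GFun.G_slash
    (GFun.merAtCusp_G N) (GFun.order_cuspLaurent_G N) (GFun.order_cuspLaurent_jFun N)
    (fun a b hb hreg' => HolPointA.exists_mdiff_mul_eq (EvDataInst.evData N) hF GFun.mdiff_G
      GFun.analyticOrderAt_G a b hb hreg') ω hω hreg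

/-- **(L) = (D).** The dictionary lower bound. -/
theorem dictLower (N : ℕ) [NeZero N] : Fermat.Agent.S20.Lower.DictLower N := by
  let _i1 : Algebra ℚ Kbar := AlgebraicClosure.instAlgebra ℚ
  let φ : Kbar →+* ℂ := (IsAlgClosed.lift (R := ℚ) (S := Kbar) (M := ℂ)).toRingHom
  letI _i2 : Algebra Kbar ℂ := φ.toAlgebra
  intro n η hη hreg
  obtain ⟨f, hf⟩ := exists_linearIndependent_cuspForm N η hη hreg
  haveI := Fermat.Agent.S21.FromLower.finite_cuspForm N
  simpa using hf.fintype_card_le_finrank

end Fermat.Agent.S20.Dict.Final
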