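import Fermat.Agent.S20.DictLocal
import Fermat.Agent.S20.HolQuotient
import Fermat.Agent.S24.FinitePackage
import Fermat.Agent.S24.PlaceOfEmb
import Fermat.Agent.S24.EmbFamily

/-!
# S20, block (L), piece L.H: holomorphy of the quotient at the points of `ℍ`

For a differential `(a / b) d j` of `FBar N` which is regular at every place, and a holomorphic
function `G` on `ℍ` with `ord_z G + 1 = ord_z (j - j z)` at every `z ∈ ℍ` (in practice
`G = (2πi)⁻¹ j'`), the quotient `ev a * G / ev b` is holomorphic on `ℍ`.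
-/

set_option autoImplicit false

open AlgebraicCurve KaehlerDifferential UpperHalfPlane
open scoped MatrixGroups Manifold

noncomputable section

namespace Fermat.Agent.S20.Dict.HolPoint

open Fermat.Agent.S24 Fermat.Agent.S24.FieldGen Fermat.Agent.S24.FinitePackage
  Fermat.Agent.S24.FiniteDatum ModularCurve

variable [Algebra Kbar ℂ] {N : ℕ} [NeZero N] (D : EvData N)

theorem hmemHol (a : genAlg N) (g : SL(2, ℤ)) : (fun τ => D.ev a (g⁻¹ • τ)) ∈ holAlg :=
  comp_smul_mem_holAlg g⁻¹ (D.hol a)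

/-- The embedding of `FBar N` into Laurent series given by expansion at the point `z0 ∈ ℍ`. -/
def sigmaPt (z0 : ℍ) : FBar N →ₐ[Kbar] LaurentSeries ℂ :=
  EmbFamily.sigmaOf N D.ev holAlg (discHom z0) (hmemHol D) D.inj (discHom_injective z0) 1

theorem sigmaPt_incl (z0 : ℍ) (a : genAlg N) :
    sigmaPt D z0 (incl N a) = discHom z0 ⟨D.ev a, D.hol a⟩ := by
  rw [sigmaPt, EmbFamily.sigmaOf_incl]
  congr 1
  apply Subtype.ext
  funext τ
  simp

theorem sigmaPt_jBar (z0 : ℍ) :
    sigmaPt D z0 (jBar N) = discHom z0 ⟨jFun, jFun_mem_holAlg⟩ := by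
  rw [jBar_eq, sigmaPt_incl]
  congr 1
  apply Subtype.ext
  exact D.ev_j

omit [Algebra Kbar ℂ] in
/-- Splitting off the constant term of the expansion of `j` at `z0`. -/
theorem discHom_jFun (z0 : ℍ) :
    discHom z0 ⟨jFun, jFun_mem_holAlg⟩ =
      algebraMap ℂ (LaurentSeries ℂ) (jFun z0) +
        discHom z0 ⟨fun τ => jFun τ - jFun z0, jFun_sub_mem_holAlg (jFun z0)⟩ := by
  rw [← AlgHom.commutes (discHom z0), ← map_add]
  congr 1
  apply Subtype.ext
  funext τ
  show jFun τ = jFun z0 + (jFun τ - jFun z0)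
  ring

theorem lderiv_sigmaPt_jBar (z0 : ℍ) :
    lderiv (sigmaPt D z0 (jBar N)) =
      lderiv (discHom z0 ⟨fun τ => jFun τ - jFun z0, jFun_sub_mem_holAlg (jFun z0)⟩) := by
  rw [sigmaPt_jBar, discHom_jFun, map_add, Derivation.map_algebraMap, zero_add]

omit [Algebra Kbar ℂ] in
theorem analyticAt_of_mdiff {f : ℍ → ℂ} (hf : MDiff f) (z0 : ℍ) :
    AnalyticAt ℂ (f ∘ ofComplex) (z0 : ℂ) :=
  ((UpperHalfPlane.mdifferentiable_iff.mp hf).analyticOnNhd isOpen_upperHalfPlaneSet) _ z0.im_pos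

/-- The local order inequality at `z0 ∈ ℍ`. -/
theorem order_le (hF : IsFunctionField1 Kbar (FBar N)) {G : ℍ → ℂ} (hG : MDiff G)
    (hGord : ∀ z0 : ℍ, analyticOrderAt (G ∘ ofComplex) z0 + 1 =
      analyticOrderAt (fun z : ℂ => jFun (ofComplex z) - jFun z0) z0)
    (a b : genAlg N) (hb : b ≠ 0)
    (hreg : ∀ v : Place Kbar (FBar N), 0 ≤ v.ordDifferential
      ((incl N a / incl N b) • KaehlerDifferential.D Kbar (FBar N) (jBar N)))
    (z0 : ℍ) :
    analyticOrderAt (D.ev b ∘ ofComplex) (z0 : ℂ) ≤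
      analyticOrderAt ((D.ev a * G) ∘ ofComplex) (z0 : ℂ) := by
  have hA : MDiff (D.ev a) := mem_holAlg_iff_mdiff.mp (D.hol a)
  have hB : MDiff (D.ev b) := mem_holAlg_iff_mdiff.mp (D.hol b)
  have hmul : (D.ev a * G) ∘ ofComplex = (D.ev a ∘ ofComplex) * (G ∘ ofComplex) := rfl
  rw [hmul, analyticOrderAt_mul (analyticAt_of_mdiff hA z0) (analyticAt_of_mdiff hG z0)]
  -- trivial cases: infinite orders
  rcases eq_or_ne (analyticOrderAt (D.ev a ∘ ofComplex) (z0 : ℂ)) ⊤ with ha | ha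
  · rw [ha, top_add]; exact le_top
  rcases eq_or_ne (analyticOrderAt (G ∘ ofComplex) (z0 : ℂ)) ⊤ with hg | hg
  · rw [hg, add_top]; exact le_top
  have hevb : D.ev b ≠ 0 := fun h => hb (D.inj (by rw [h, map_zero]))
  have hbt : analyticOrderAt (D.ev b ∘ ofComplex) (z0 : ℂ) ≠ ⊤ :=
    HolQuotient.analyticOrderAt_ne_top_of_ne_zero hB hevb z0
  obtain ⟨na, hna⟩ := ENat.ne_top_iff_exists.mp ha
  obtain ⟨nG, hnG⟩ := ENat.ne_top_iff_exists.mp hg
  obtain ⟨nb, hnb⟩ := ENat.ne_top_iff_exists.mp hbt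
  rw [← hna, ← hnG, ← hnb]
  have ha0 : a ≠ 0 := by
    rintro rfl
    apply ha
    rw [map_zero]
    exact analyticOrderAt_eq_top.mpr (Filter.Eventually.of_forall fun _ => rfl)
  -- the embedding at `z0`
  set σ := sigmaPt D z0 with hσ
  have hia : incl N a ≠ 0 := incl_ne_zero N ha0
  have hib : incl N b ≠ 0 := incl_ne_zero N hb
  have hσa : (σ (incl N a)).order = na := by
    rw [hσ, sigmaPt_incl]
    exact order_discHom z0 ⟨D.ev a, D.hol a⟩ hna.symm
  have hσb : (σ (incl N b)).order = nb := by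
    rw [hσ, sigmaPt_incl]
    exact order_discHom z0 ⟨D.ev b, D.hol b⟩ hnb.symm
  by_cases hpl : ∃ y : FBar N, y ≠ 0 ∧ (σ y).order ≠ 0
  · -- the point induces a place
    obtain ⟨m, hm, hord⟩ := exists_order_eq_mul_ord σ hpl
    set w := placeOfEmb σ hpl with hw
    have hspan := DictLocal.hspan_of_isFunctionField1 hF
    -- the expansion of `j - j z0`
    set ξ : LaurentSeries ℂ :=
      discHom z0 ⟨fun τ => jFun τ - jFun z0, jFun_sub_mem_holAlg (jFun z0)⟩ with hξ
    have hξord : ξ.order = ((nG + 1 : ℕ) : ℤ) := by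
      apply order_discHom z0 ⟨fun τ => jFun τ - jFun z0, jFun_sub_mem_holAlg (jFun z0)⟩
      have := hGord z0
      rw [← hnG] at this
      show analyticOrderAt (fun z : ℂ => jFun (ofComplex z) - jFun z0) (z0 : ℂ) = _
      rw [← this]
      push_cast
      rfl
    have hξ0 : ξ ≠ 0 := by
      intro h0
      rw [h0, HahnSeries.order_zero] at hξord
      omega
    have hξo : ξ.order ≠ 0 := by rw [hξord]; omega
    have hlj : lderiv (σ (jBar N)) = lderiv ξ := lderiv_sigmaPt_jBar D z0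
    have hlj0 : lderiv ξ ≠ 0 := lderiv_ne_zero hξ0 hξo
    have hljo : (lderiv ξ).order = nG := by
      rw [order_lderiv hξ0 hξo, hξord]
      push_cast
      ring
    have hσh : σ (incl N a / incl N b) ≠ 0 := emb_ne_zero σ (div_ne_zero hia hib)
    have hσho : (σ (incl N a / incl N b)).order = (na : ℤ) - nb := by
      rw [map_div₀, LaurentOrd.order_div (emb_ne_zero σ hia) (emb_ne_zero σ hib), hσa, hσb]
    rcases DictLocal.le_order_mul_lderiv_of_regular w σ m hm hord hspan
      (incl N a / incl N b) (jBar N) (hreg w) with h0 | h1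
    · rw [hlj] at h0
      exact absurd h0 (mul_ne_zero hσh hlj0)
    · rw [hlj, HahnSeries.order_mul hσh hlj0, hσho, hljo] at h1
      have : (nb : ℤ) ≤ na + nG := by omega
      exact_mod_cast this
  · -- all orders vanish: `ev b` does not vanish at `z0`
    have h0 : (σ (incl N b)).order = 0 := by
      by_contra hne
      exact hpl ⟨_, hib, hne⟩
    rw [hσb] at h0
    have : nb = 0 := by exact_mod_cast h0
    rw [this, Nat.cast_zero]
    exact bot_le

/-- **L.H** Holomorphy of the quotient `ev a * G / ev b` attached to a regular differential. -/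
theorem exists_mdiff_mul_eq (hF : IsFunctionField1 Kbar (FBar N)) {G : ℍ → ℂ} (hG : MDiff G)
    (hGord : ∀ z0 : ℍ, analyticOrderAt (G ∘ ofComplex) z0 + 1 =
      analyticOrderAt (fun z : ℂ => jFun (ofComplex z) - jFun z0) z0)
    (a b : genAlg N) (hb : b ≠ 0)
    (hreg : ∀ v : Place Kbar (FBar N), 0 ≤ v.ordDifferential
      ((incl N a / incl N b) • KaehlerDifferential.D Kbar (FBar N) (jBar N))) :
    ∃ c : ℍ → ℂ, MDiff c ∧ D.ev a * G = c * D.ev b := by
  have hA : MDiff (D.ev a) := mem_holAlg_iff_mdiff.mp (D.hol a)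
  have hB : MDiff (D.ev b) := mem_holAlg_iff_mdiff.mp (D.hol b)
  have hevb : D.ev b ≠ 0 := fun h => hb (D.inj (by rw [h, map_zero]))
  exact HolQuotient.exists_mdiff_mul_eq (hA.mul hG) hB hevb
    (order_le D hF hG hGord a b hb hreg)

end Fermat.Agent.S20.Dict.HolPoint
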