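import Fermat.Agent.S24.PlaceOfEmb
import Fermat.Agent.S24.DiffOrder

/-!
# S20, block (L), piece L.A: the local algebraic inequality

Let `σ : F →ₐ[K] ℂ((u))` be an embedding of a function field of one variable and `y : F` with
`(σ y).order ≠ 0`.  If the differential `h • d y` has nonnegative order at every place of `F / K`,
then `1 ≤ (σ h).order + (σ y).order`.
-/

set_option autoImplicit false

open AlgebraicCurve KaehlerDifferential

namespace Fermat.Agent.S20.Dict.LocalAlg

open Fermat.Agent.S24

variable {K F : Type*} [Field K] [Field F] [Algebra K F] [IsAlgClosed K] [CharZero K]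
  [Algebra K ℂ]

/-- The local inequality at the place induced by an embedding into Laurent series. -/
theorem one_le_order_add_order (hF : IsFunctionField1 K F) (σ : F →ₐ[K] LaurentSeries ℂ)
    {y h : F} (hy : (σ y).order ≠ 0) (hh : h ≠ 0)
    (hreg : ∀ v : Place K F, 0 ≤ v.ordDifferential (h • D K F y)) :
    1 ≤ (σ h).order + (σ y).order := by
  have hy0 : y ≠ 0 := by
    rintro rfl
    rw [map_zero, HahnSeries.order_zero] at hy
    exact hy rfl
  have hex : ∃ y : F, y ≠ 0 ∧ (σ y).order ≠ 0 := ⟨y, hy0, hy⟩
  obtain ⟨m, hm, hord⟩ := exists_order_eq_mul_ord σ hex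
  set w := placeOfEmb σ hex with hw
  have hwy : w.ord y ≠ 0 := by
    intro h0
    rw [hord y hy0, h0, mul_zero] at hy
    exact hy rfl
  have hDy : D K F y ≠ 0 := by
    intro h0
    have h1 := DiffOrder.ordDifferential_D hF w y hwy
    -- `ordDifferential 0 = 0`, so `w.ord y = 1`; use another argument: `D y ≠ 0`
    have htr : Transcendental K y := DiffOrder.transcendental_of_ord_ne_zero w hwy
    exact KaehlerGen.FF.D_ne_zero hF htr h0
  have h1 : w.ordDifferential (h • D K F y) = w.ord h + (w.ord y - 1) := by
    rw [DiffOrder.ordDifferential_smul' hF w h hh _ hDy, DiffOrder.ordDifferential_D hF w y hwy]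
  have h2 := hreg w
  rw [h1] at h2
  rw [hord h hh, hord y hy0]
  nlinarith
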