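/-
S20, piece L.T of the (L)-dictionary: a discrete valuation (given by a ring hom into `ℂ((u))`)
which is trivial on `K(x)` is trivial on every algebraic extension of `K(x)`.
Mathlib only.
-/
import Mathlib

set_option autoImplicit false

noncomputable section

namespace Fermat.Agent.S20.Dict.TrivVal

open Polynomial IntermediateField

variable {F : Type*} [Field F]

theorem map_ne_zero' (σ : F →+* LaurentSeries ℂ) {f : F} (hf : f ≠ 0) : σ f ≠ 0 :=
  (map_ne_zero σ).mpr hf

theorem order_map_mul (σ : F →+* LaurentSeries ℂ) {f g : F} (hf : f ≠ 0) (hg : g ≠ 0) :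
    (σ (f * g)).order = (σ f).order + (σ g).order := by
  rw [map_mul]; exact HahnSeries.order_mul (map_ne_zero' σ hf) (map_ne_zero' σ hg)

theorem order_map_inv (σ : F →+* LaurentSeries ℂ) (f : F) :
    (σ f⁻¹).order = -(σ f).order := by
  rcases eq_or_ne f 0 with rfl | hf
  · simp
  · have h := order_map_mul σ hf (inv_ne_zero hf)
    rw [mul_inv_cancel₀ hf, map_one, HahnSeries.order_one] at h
    omega

/-- The valuation subring `{f | 0 ≤ ord_u (σ f)}` of `F` attached to a ring hom into `ℂ((u))`. -/
def valSubring (σ : F →+* LaurentSeries ℂ) : ValuationSubring F where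
  carrier := {f | 0 ≤ (σ f).order}
  mul_mem' := by
    intro a b ha hb
    simp only [Set.mem_ofPred_eq] at ha hb ⊢
    rcases eq_or_ne a 0 with rfl | ha0
    · simp
    rcases eq_or_ne b 0 with rfl | hb0
    · simp
    rw [order_map_mul σ ha0 hb0]; omega
  one_mem' := by simp
  add_mem' := by
    intro a b ha hb
    simp only [Set.mem_ofPred_eq] at ha hb ⊢
    rcases eq_or_ne (a + b) 0 with h0 | h0
    · rw [h0]; simp
    have := HahnSeries.min_order_le_order_add (x := σ a) (y := σ b)
      (by rw [← map_add]; exact map_ne_zero' σ h0)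
    rw [map_add]
    exact le_trans (le_min ha hb) this
  zero_mem' := by simp
  neg_mem' := by
    intro a ha
    simp only [Set.mem_ofPred_eq] at ha ⊢
    rw [map_neg, HahnSeries.order_neg]; exact ha
  mem_or_inv_mem' := by
    intro a
    simp only [Set.mem_ofPred_eq]
    rw [order_map_inv]
    omega

theorem mem_valSubring (σ : F →+* LaurentSeries ℂ) (f : F) :
    f ∈ valSubring σ ↔ 0 ≤ (σ f).order := Iff.rfl

variable {K : Type*} [Field K] [Algebra K F]

/-- If the valuation ring of `σ` contains a subfield `E` over which `F` is algebraic, it is all of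
`F` (valuation rings are integrally closed). -/
theorem order_nonneg_of_le (σ : F →+* LaurentSeries ℂ)
    (E : IntermediateField K F) [Algebra.IsAlgebraic E F]
    (hE : ∀ y : E, 0 ≤ (σ (y : F)).order) (f : F) : 0 ≤ (σ f).order := by
  have hint : IsIntegral E f := (Algebra.IsAlgebraic.isAlgebraic (R := E) f).isIntegral
  let O := valSubring σ
  let φ : E →+* O := (algebraMap E F).codRestrict O.toSubring (fun y => hE y)
  have hcomp : (O.subtype).comp φ = algebraMap E F := by
    ext y; rfl
  have h1 : ((O.subtype).comp φ).IsIntegralElem f := by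
    rw [hcomp]; exact hint
  have h2 : (O.subtype).IsIntegralElem f := RingHom.IsIntegralElem.of_comp h1
  have h3 : IsIntegral O f := h2
  obtain ⟨y, hy⟩ := IsIntegrallyClosed.isIntegral_iff.mp h3
  rw [← hy]
  exact y.2

/-- **L.T.** A valuation (coming from a ring hom `σ : F → ℂ((u))`) which is trivial on the nonzero
polynomials in `x` is trivial on `F`, provided `F` is algebraic over `K(x)`. -/
theorem order_eq_zero_of_isAlgebraic (σ : F →+* LaurentSeries ℂ) (x : F)
    [Algebra.IsAlgebraic K⟮x⟯ F]
    (hx : ∀ p : K[X], p ≠ 0 → (σ (Polynomial.aeval x p)).order = 0) (f : F) (_hf : f ≠ 0) :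
    (σ f).order = 0 := by
  have hx' : ∀ p : K[X], (σ (Polynomial.aeval x p)).order = 0 := by
    intro p
    rcases eq_or_ne p 0 with rfl | hp
    · simp
    · exact hx p hp
  have hE : ∀ y : K⟮x⟯, 0 ≤ (σ (y : F)).order := by
    rintro ⟨y, hy⟩
    obtain ⟨r, s, rfl⟩ := (mem_adjoin_simple_iff K y).mp hy
    show 0 ≤ (σ (aeval x r / aeval x s)).order
    rw [div_eq_mul_inv]
    rcases eq_or_ne (aeval x r) 0 with h0 | h0
    · rw [h0, zero_mul, map_zero, HahnSeries.order_zero]
    rcases eq_or_ne (aeval x s) 0 with h1 | h1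
    · rw [h1, inv_zero, mul_zero, map_zero, HahnSeries.order_zero]
    rw [order_map_mul σ h0 (inv_ne_zero h1), order_map_inv, hx' r, hx' s]
    simp
  have h1 := order_nonneg_of_le σ K⟮x⟯ hE f
  have h2 := order_nonneg_of_le σ K⟮x⟯ hE f⁻¹
  rw [order_map_inv] at h2
  omega

/-- Over an algebraically closed field `K`, a complex number outside the image of `K` is not a
root of any nonzero polynomial with coefficients in `K`. -/
theorem eval_map_ne_zero_of_not_mem_range [IsAlgClosed K] [Algebra K ℂ] {z : ℂ}
    (hz : z ∉ Set.range (algebraMap K ℂ)) (p : K[X]) (hp : p ≠ 0) :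
    (p.map (algebraMap K ℂ)).eval z ≠ 0 := by
  intro h0
  have halg : IsAlgebraic K z := ⟨p, hp, by rwa [aeval_def, ← eval_map]⟩
  have hint : IsIntegral K z := halg.isIntegral
  have hirr := minpoly.irreducible hint
  have hdeg := IsAlgClosed.degree_eq_one_of_irreducible K hirr
  obtain ⟨a, ha⟩ := minpoly.mem_range_of_degree_eq_one K z hdeg
  exact hz ⟨a, ha⟩

/-- Same, as transcendence. -/
theorem transcendental_of_not_mem_range [IsAlgClosed K] [Algebra K ℂ] {z : ℂ}
    (hz : z ∉ Set.range (algebraMap K ℂ)) : Transcendental K z := by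
  rw [transcendental_iff]
  intro p hp
  by_contra hne
  refine eval_map_ne_zero_of_not_mem_range hz p hne ?_
  rwa [eval_map, ← aeval_def]

end Fermat.Agent.S20.Dict.TrivVal
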